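/-
P-ORD (S33), block (G-A), step [MOVE] / KUM-IN-J1 (helper87).

Setting of `Fermat.Agent.H18.ORD.NodalDefs` : a nodal reduction datum `G` of `F = ℚ̄(X₀(N))`
with `NodalRvHyp p G`, base divisors `(Boo, B0)` on the two components with `NodalBase`
(non-speciality (NS1), (NS2)), base points `O : Fin g → Place` specialising injectively to
smooth points, dominated by `(Boo, B0)`, and Riemann's inequality on the generic fibre with
genus `gN ≤ g` (the node-count inequality [NC]).

`move` : let `D'` be a divisor of degree `0` and `gk` a KUMMER ONE-UNIT with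
`div gk = p ^ n • D'` (`gk ∈ V_∞ ∩ V_0` with both reductions equal to `1`).  Then there are
points `P i` in the residue discs of the `O i` and `f ≠ 0` with
`div f = ∑ (P i - O i) - D'`, i.e. the class of `D'` is `[∑ (P i - O i)]`.
(`D'` itself may have points anywhere, e.g. in the annuli of the nodes.)

Proof: Riemann gives `f ≠ 0` in `L(D' + ∑ O i)`; `E := div f + D' + ∑ O i ≥ 0`;
`φ := f ^ (p ^ n) * gk` has divisor `p ^ n • (E - ∑ O i)`; helper18's `NodalRvHyp.bal` shows
that `E` and `∑ O i` have the same push-forward to the special fibre; helper94's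
`ordMove_exists_points` finishes.
-/
import Fermat.Agent.H18.ORD.NodalBal
import Fermat.Agent.H94.ORD.MoveComb

set_option autoImplicit false
set_option linter.style.haveILetI false
set_option linter.unusedSectionVars false

noncomputable section

open AlgebraicCurve ModularCurve

namespace Fermat.Agent.H87.ORD

open Fermat.Agent.H72.FF Fermat.Agent.H18.ORD Fermat.Agent.H27.ESD Fermat.Agent.H94.ORD

/-- the base divisor `∑ O i` -/
def baseDiv {K F : Type*} [Field K] [Field F] [Algebra K F] {g : ℕ} (O : Fin g → Place K F) :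
    Divisor K F :=
  ∑ i, Finsupp.single (O i) (1 : ℤ)

theorem degree_baseDiv {K F : Type*} [Field K] [Field F] [Algebra K F]
    (hdeg : ∀ v : Place K F, v.deg = 1) {g : ℕ} (O : Fin g → Place K F) :
    Divisor.degree (baseDiv O) = g := by
  unfold baseDiv
  rw [map_sum]
  simp [Divisor.degree_single, hdeg]

/-- Riemann: a divisor of degree `≥ g` has a nonzero section. -/
theorem exists_section_of_genus_le {K F : Type*} [Field K] [Field F] [Algebra K F] {gN : ℕ}
    (R : RiemannPackage K F gN) (B : Divisor K F) (hB : (gN : ℤ) ≤ Divisor.degree B) :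
    ∃ f : F, f ≠ 0 ∧ f ∈ riemannRochSpace B := by
  have h := R.riemann B
  haveI := R.finite B
  have hpos : 0 < Module.finrank K (riemannRochSpace B) := by
    have : (1 : ℤ) ≤ (Module.finrank K (riemannRochSpace B) : ℤ) := by omega
    exact_mod_cast this
  obtain ⟨x, hx⟩ := Module.finrank_pos_iff_exists_ne_zero.mp hpos
  exact ⟨x, fun h0 => hx (Subtype.ext h0), x.2⟩

variable {N : ℕ} {A : ValuationSubring Qb} {Foo F0 : Type} [Field Foo] [Field F0]
  [Algebra (kRes A) Foo] [Algebra (kRes A) F0] {ι : Type} {p : ℕ}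
  {G : NodalData N A Foo F0 ι}

/-- **[MOVE]** : a Kummer one-unit class has a representative `∑ (P i - O i)` with `P i` in the
residue disc of `O i`. -/
theorem move (H : NodalRvHyp p G) (hp : p.Prime) (hA : A.LiesOverPrime p) [Nonempty ι]
    {Boo : Divisor (kRes A) Foo} {B0 : Divisor (kRes A) F0} (hB : NodalBase G Boo B0)
    {g gN : ℕ} (R : RiemannPackage Qb (FLb N) gN) (hg : gN ≤ g)
    (O : Fin g → Place Qb (FLb N)) (hO : Function.Injective fun i => G.r (O i))
    (hOsm : ∀ i ν, G.r (O i) ≠ NPt.node ν)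
    (hBoo : ∀ Q : Place (kRes A) Foo, Q ∉ Set.range G.nOo →
      Finsupp.mapDomain G.r (baseDiv O) (NPt.oo Q) ≤ Boo Q)
    (hB0 : ∀ Q : Place (kRes A) F0, Q ∉ Set.range G.n0 →
      Finsupp.mapDomain G.r (baseDiv O) (NPt.zero Q) ≤ B0 Q)
    (n : ℕ) (D' : Divisor Qb (FLb N)) (hD' : Divisor.degree D' = 0)
    (gk : FLb N) (hgk : gk ≠ 0) (hgkD : ∀ P : Place Qb (FLb N),
      P.ord gk = ((p ^ n : ℕ) : ℤ) * D' P)
    (hgoo : ∃ h : gk ∈ G.Voo, G.redOo ⟨gk, h⟩ = 1)
    (hg0 : ∃ h : gk ∈ G.V0, G.red0 ⟨gk, h⟩ = 1) :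
    ∃ (P : Fin g → Place Qb (FLb N)) (f : FLb N), f ≠ 0 ∧ (∀ i, G.r (P i) = G.r (O i)) ∧
      ∀ v : Place Qb (FLb N), v.ord f = baseDiv P v - baseDiv O v - D' v := by
  classical
  haveI := R.principal
  have hmpos : (0 : ℤ) < ((p ^ n : ℕ) : ℤ) := by exact_mod_cast pow_pos hp.pos n
  -- Riemann on the generic fibre
  obtain ⟨f, hf, hfL⟩ := exists_section_of_genus_le R (D' + baseDiv O) (by
    rw [map_add, hD', zero_add, degree_baseDiv R.deg_one]
    exact_mod_cast hg)
  obtain ⟨Ef, hEf, -⟩ := HasPrincipalDivisors.exists_divisor (K := Qb) f hf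
  set E : Divisor Qb (FLb N) := Ef + D' + baseDiv O with hEdef
  have hE : ∀ a, 0 ≤ E a := by
    intro a
    have := ((mem_riemannRochSpace_iff.mp hfL) a).resolve_left hf
    rw [hEdef, Finsupp.add_apply, Finsupp.add_apply, hEf a]
    rw [Finsupp.add_apply] at this
    omega
  have hOnode : ∀ a ν, G.r a = NPt.node ν → baseDiv O a = 0 := by
    intro a ν ha
    refine ordMove_base_apply_of_notMem O a fun i hi => ?_
    exact hOsm i ν (hi ▸ ha)
  -- the divisor of `φ = f ^ (p ^ n) * gk`
  set D : Divisor Qb (FLb N) := ((p ^ n : ℕ) : ℤ) • (Ef + D') with hDdef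
  have hDapp : ∀ a, D a = ((p ^ n : ℕ) : ℤ) * (E a - baseDiv O a) := by
    intro a
    rw [hDdef, hEdef, Finsupp.smul_apply, smul_eq_mul, Finsupp.add_apply, Finsupp.add_apply,
      Finsupp.add_apply]
    ring
  have hD : ∀ a : Place Qb (FLb N), D a = a.ord (f ^ (p ^ n) * gk) := by
    intro a
    rw [a.ord_mul (pow_ne_zero _ hf) hgk, nb_ord_pow, hgkD a, hDdef, Finsupp.smul_apply,
      smul_eq_mul, Finsupp.add_apply, hEf a]
    ring
  have hmapD : ∀ x, Finsupp.mapDomain G.r D x =
      ((p ^ n : ℕ) : ℤ) * (Finsupp.mapDomain G.r E x - Finsupp.mapDomain G.r (baseDiv O) x) := by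
    intro x
    have hDE : D = ((p ^ n : ℕ) : ℤ) • E - ((p ^ n : ℕ) : ℤ) • baseDiv O := by
      ext a
      rw [hDapp a, Finsupp.sub_apply, Finsupp.smul_apply, Finsupp.smul_apply, smul_eq_mul,
        smul_eq_mul]
      ring
    have hsub : Finsupp.mapDomain G.r D =
        Finsupp.mapDomain G.r (((p ^ n : ℕ) : ℤ) • E) -
          Finsupp.mapDomain G.r (((p ^ n : ℕ) : ℤ) • baseDiv O) := by
      rw [hDE]
      exact map_sub (Finsupp.mapDomain.addMonoidHom G.r) _ _
    rw [hsub, Finsupp.sub_apply, Finsupp.mapDomain_smul, Finsupp.mapDomain_smul,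
      Finsupp.smul_apply, Finsupp.smul_apply, smul_eq_mul, smul_eq_mul]
    ring
  -- BAL
  obtain ⟨-, -, -, -, -, -, -, -, hnodeD, hooD, h0D⟩ :=
    H.bal hp hA hB n f gk hf hgoo hg0 D hD
      (fun a ν ha => by
        rw [hDapp a, hOnode a ν ha, sub_zero]
        exact mul_nonneg hmpos.le (hE a))
      (fun Q hQ => by
        rw [hmapD]
        have h1 := ordMove_mapDomain_nonneg G.r E hE (NPt.oo Q)
        have h2 := hBoo Q hQ
        nlinarith)
      (fun Q hQ => by
        rw [hmapD]
        have h1 := ordMove_mapDomain_nonneg G.r E hE (NPt.zero Q)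
        have h2 := hB0 Q hQ
        nlinarith)
  -- equality of the push-forwards
  have hmap : Finsupp.mapDomain G.r E = Finsupp.mapDomain G.r (baseDiv O) := by
    ext x
    rcases x with Q | Q | ν
    · by_cases hQ : Q ∈ Set.range G.nOo
      · rw [ordMove_mapDomain_eq_zero G.r E _ (fun a ha => absurd hQ (H.r_oo a Q ha)),
          ordMove_mapDomain_eq_zero G.r (baseDiv O) _ (fun a ha => absurd hQ (H.r_oo a Q ha))]
      · have h := hooD Q hQ
        rw [hmapD] at h
        rcases mul_eq_zero.mp h with h | h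
        · exact absurd h hmpos.ne'
        · exact sub_eq_zero.mp h
    · by_cases hQ : Q ∈ Set.range G.n0
      · rw [ordMove_mapDomain_eq_zero G.r E _ (fun a ha => absurd hQ (H.r_zero a Q ha)),
          ordMove_mapDomain_eq_zero G.r (baseDiv O) _
            (fun a ha => absurd hQ (H.r_zero a Q ha))]
      · have h := h0D Q hQ
        rw [hmapD] at h
        rcases mul_eq_zero.mp h with h | h
        · exact absurd h hmpos.ne'
        · exact sub_eq_zero.mp h
    · rw [ordMove_mapDomain_eq_zero G.r E _ (fun a ha => by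
          have h := hnodeD a ν ha
          rw [hDapp a, hOnode a ν ha, sub_zero] at h
          rcases mul_eq_zero.mp h with h | h
          · exact absurd h hmpos.ne'
          · exact h),
        ordMove_mapDomain_eq_zero G.r (baseDiv O) _ (fun a ha => hOnode a ν ha)]
  -- the points
  obtain ⟨P, hP, hEP⟩ := ordMove_exists_points G.r E hE O hO hmap
  refine ⟨P, f, hf, hP, fun v => ?_⟩
  have h1 : E v = baseDiv P v := by rw [hEP]; rfl
  rw [← h1, hEdef, Finsupp.add_apply, Finsupp.add_apply, hEf v]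
  ring

end Fermat.Agent.H87.ORD

end
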