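import Fermat.Agent.H18.ORD.NodalSemiDefs

/-!
# P-ORD, block B1-LIFT, step [NC] : `g + 1 ≤ g_∞ + g_0 + #nodes` from the anchor lift (helper87)

`nodalNC : Fermat.Agent.H18.ORD.NodalNCStatement`.

Route (helper18, findings #553): for `n` large the glued space of
`L(r_* n D₀) × L(r_* n D₀)` has dimension `≥ n deg D₀ + 2 - g_∞ - g_0 - s` (RR-GLUE + Riemann),
a basis lifts (ANCHOR-LIFT) to elements of `L(n D₀)`, the lifts are `ℚ̄`-linearly independent
(normalise a relation, reduce), and `l(n D₀) = n deg D₀ + 1 - g`.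
-/

set_option autoImplicit false
set_option linter.style.haveILetI false
set_option linter.unusedSectionVars false

noncomputable section

open AlgebraicCurve ModularCurve

namespace Fermat.Agent.H87.ORD

open Fermat.Agent.H72.FF Fermat.Agent.H18.ORD Fermat.Agent.H27.ESD

variable {N : ℕ} {A : ValuationSubring Qb} {Foo F0 : Type} [Field Foo] [Field F0]
  [Algebra (kRes A) Foo] [Algebra (kRes A) F0] {ι : Type}

/-! ### Finite dimensionality of the glued space -/

theorem nc_glued_finite {goo g0 : ℕ} (G : NodalData N A Foo F0 ι)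
    (Roo : RiemannPackage (kRes A) Foo goo) (R0 : RiemannPackage (kRes A) F0 g0)
    (Doo : Divisor (kRes A) Foo) (D0 : Divisor (kRes A) F0) :
    Module.Finite (kRes A) ↥(gluedSpace G Doo D0) := by
  have hle : gluedSpace G Doo D0 ≤ (riemannRochSpace Doo).prod (riemannRochSpace D0) := by
    intro z hz
    exact ⟨hz.1, hz.2.1⟩
  haveI : Module.Finite (kRes A) ↥((riemannRochSpace Doo).prod (riemannRochSpace D0)) :=
    Module.Finite.iff_fg.mpr (Submodule.FG.prod (Module.Finite.iff_fg.mp (Roo.finite Doo))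
      (Module.Finite.iff_fg.mp (R0.finite D0)))
  exact Submodule.finiteDimensional_of_le hle

/-! ### Push-forward : node branches and degrees -/

theorem nc_pushOo_node (G : NodalData N A Foo F0 ι)
    (hr : ∀ P Q, G.r P = NPt.oo Q → Q ∉ Set.range G.nOo) (D : Divisor Qb (FLb N)) (ν : ι) :
    pushOo G D (G.nOo ν) = 0 := by
  rw [pushOo_apply]
  apply Finsupp.mapDomain_of_notMem_range
  rintro ⟨P, hP⟩
  exact hr P _ hP ⟨ν, rfl⟩

theorem nc_pushZero_node (G : NodalData N A Foo F0 ι)
    (hr : ∀ P Q, G.r P = NPt.zero Q → Q ∉ Set.range G.n0) (D : Divisor Qb (FLb N)) (ν : ι) :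
    pushZero G D (G.n0 ν) = 0 := by
  rw [pushZero_apply]
  apply Finsupp.mapDomain_of_notMem_range
  rintro ⟨P, hP⟩
  exact hr P _ hP ⟨ν, rfl⟩

theorem nc_pushOo_add (G : NodalData N A Foo F0 ι) (D D' : Divisor Qb (FLb N)) :
    pushOo G (D + D') = pushOo G D + pushOo G D' := by
  ext Q
  rw [Finsupp.add_apply, pushOo_apply, pushOo_apply, pushOo_apply, Finsupp.mapDomain_add,
    Finsupp.add_apply]

theorem nc_pushZero_add (G : NodalData N A Foo F0 ι) (D D' : Divisor Qb (FLb N)) :
    pushZero G (D + D') = pushZero G D + pushZero G D' := by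
  ext Q
  rw [Finsupp.add_apply, pushZero_apply, pushZero_apply, pushZero_apply, Finsupp.mapDomain_add,
    Finsupp.add_apply]

theorem nc_pushOo_zero (G : NodalData N A Foo F0 ι) : pushOo G 0 = 0 := by
  ext Q
  rw [pushOo_apply, Finsupp.mapDomain_zero]
  rfl

theorem nc_pushZero_zero (G : NodalData N A Foo F0 ι) : pushZero G 0 = 0 := by
  ext Q
  rw [pushZero_apply, Finsupp.mapDomain_zero]
  rfl

/-- the total mass of a divisor is the mass of its push-forwards plus the mass at the nodes -/
theorem nc_degree_push (G : NodalData N A Foo F0 ι) [Fintype ι]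
    (hL : ∀ v : Place Qb (FLb N), v.deg = 1) (hoo : ∀ v : Place (kRes A) Foo, v.deg = 1)
    (h0 : ∀ v : Place (kRes A) F0, v.deg = 1) (D : Divisor Qb (FLb N)) :
    Divisor.degree (pushOo G D) + Divisor.degree (pushZero G D) +
      ∑ ν, Finsupp.mapDomain G.r D (NPt.node ν) = Divisor.degree D := by
  classical
  induction D using Finsupp.induction_linear with
  | zero =>
    rw [nc_pushOo_zero, nc_pushZero_zero, map_zero, map_zero, Finsupp.mapDomain_zero]
    simp
  | add D D' hD hD' =>
    rw [nc_pushOo_add, nc_pushZero_add, map_add, map_add, map_add, Finsupp.mapDomain_add]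
    simp only [Finsupp.add_apply, Finset.sum_add_distrib]
    linarith
  | single P m =>
    rw [Divisor.degree_single, hL P]
    have hmd : Finsupp.mapDomain G.r (Finsupp.single P m) = Finsupp.single (G.r P) m :=
      Finsupp.mapDomain_single
    rcases h : G.r P with Q | Q | ν
    · have e1 : pushOo G (Finsupp.single P m) = Finsupp.single Q m := by
        ext Q'
        rw [pushOo_apply, hmd, h, Finsupp.single_apply, Finsupp.single_apply]
        by_cases hQ : Q = Q'
        · rw [if_pos hQ, if_pos (by rw [hQ])]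
        · rw [if_neg hQ, if_neg (fun h' => hQ (NPt.oo.inj h'))]
      have e2 : pushZero G (Finsupp.single P m) = 0 := by
        ext Q'
        rw [pushZero_apply, hmd, h, Finsupp.single_apply, if_neg (fun h' => by cases h')]
        rfl
      have e3 : ∑ ν, Finsupp.mapDomain G.r (Finsupp.single P m) (NPt.node ν) = 0 := by
        apply Finset.sum_eq_zero
        intro ν _
        rw [hmd, h, Finsupp.single_apply, if_neg (fun h' => by cases h')]
      rw [e1, e2, e3, Divisor.degree_single, hoo Q, map_zero]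
      ring
    · have e1 : pushOo G (Finsupp.single P m) = 0 := by
        ext Q'
        rw [pushOo_apply, hmd, h, Finsupp.single_apply, if_neg (fun h' => by cases h')]
        rfl
      have e2 : pushZero G (Finsupp.single P m) = Finsupp.single Q m := by
        ext Q'
        rw [pushZero_apply, hmd, h, Finsupp.single_apply, Finsupp.single_apply]
        by_cases hQ : Q = Q'
        · rw [if_pos hQ, if_pos (by rw [hQ])]
        · rw [if_neg hQ, if_neg (fun h' => hQ (NPt.zero.inj h'))]
      have e3 : ∑ ν, Finsupp.mapDomain G.r (Finsupp.single P m) (NPt.node ν) = 0 := by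
        apply Finset.sum_eq_zero
        intro ν _
        rw [hmd, h, Finsupp.single_apply, if_neg (fun h' => by cases h')]
      rw [e1, e2, e3, Divisor.degree_single, h0 Q, map_zero]
      ring
    · have e1 : pushOo G (Finsupp.single P m) = 0 := by
        ext Q'
        rw [pushOo_apply, hmd, h, Finsupp.single_apply, if_neg (fun h' => by cases h')]
        rfl
      have e2 : pushZero G (Finsupp.single P m) = 0 := by
        ext Q'
        rw [pushZero_apply, hmd, h, Finsupp.single_apply, if_neg (fun h' => by cases h')]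
        rfl
      have e3 : ∑ ν', Finsupp.mapDomain G.r (Finsupp.single P m) (NPt.node ν') = m := by
        rw [Finset.sum_eq_single ν]
        · rw [hmd, h, Finsupp.single_apply, if_pos rfl]
        · intro ν' _ hν'
          rw [hmd, h, Finsupp.single_apply, if_neg (fun h' => hν' (NPt.node.inj h').symm)]
        · intro hν
          exact absurd (Finset.mem_univ ν) hν
      rw [e1, e2, e3]
      simp

/-- a divisor without point over a node has no mass at the nodes -/
theorem nc_node_mass (G : NodalData N A Foo F0 ι) (D : Divisor Qb (FLb N))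
    (hD : ∀ P ν, G.r P = NPt.node ν → D P = 0) (ν : ι) :
    Finsupp.mapDomain G.r D (NPt.node ν) = 0 := by
  classical
  rw [Finsupp.mapDomain, Finsupp.sum, Finsupp.finsetSum_apply]
  apply Finset.sum_eq_zero
  intro P _
  rw [Finsupp.single_apply]
  by_cases h : G.r P = NPt.node ν
  · rw [if_pos h, hD P ν h]
  · rw [if_neg h]

theorem nc_degree_push_of_node (G : NodalData N A Foo F0 ι) [Finite ι]
    (hL : ∀ v : Place Qb (FLb N), v.deg = 1) (hoo : ∀ v : Place (kRes A) Foo, v.deg = 1)
    (h0 : ∀ v : Place (kRes A) F0, v.deg = 1) (D : Divisor Qb (FLb N))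
    (hD : ∀ P ν, G.r P = NPt.node ν → D P = 0) :
    Divisor.degree (pushOo G D) + Divisor.degree (pushZero G D) = Divisor.degree D := by
  haveI := Fintype.ofFinite ι
  have h := nc_degree_push G hL hoo h0 D
  have h2 : ∑ ν, Finsupp.mapDomain G.r D (NPt.node ν) = 0 :=
    Finset.sum_eq_zero fun ν _ => nc_node_mass G D hD ν
  rw [h2, add_zero] at h
  exact h

/-! ### Lifts of independent pairs are independent -/

theorem nc_lift_indep (G : NodalData N A Foo F0 ι)
    (hcoo : ∀ c : Qb, c ∈ A → algebraMap Qb (FLb N) c ∈ G.Voo)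
    (hc0 : ∀ c : Qb, c ∈ A → algebraMap Qb (FLb N) c ∈ G.V0)
    (hroo : ∀ (c : A) (h : algebraMap Qb (FLb N) (c : Qb) ∈ G.Voo),
      G.redOo ⟨_, h⟩ = algebraMap (kRes A) Foo (IsLocalRing.residue A c))
    (hr0 : ∀ (c : A) (h : algebraMap Qb (FLb N) (c : Qb) ∈ G.V0),
      G.red0 ⟨_, h⟩ = algebraMap (kRes A) F0 (IsLocalRing.residue A c))
    {m : ℕ} (u : Fin m → FLb N) (hu : ∀ i, u i ∈ G.Voo) (hu0 : ∀ i, u i ∈ G.V0)
    (hli : LinearIndependent (kRes A)
      (fun i => ((G.redOo ⟨u i, hu i⟩, G.red0 ⟨u i, hu0 i⟩) : Foo × F0))) :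
    LinearIndependent Qb u := by
  classical
  rw [Fintype.linearIndependent_iff]
  intro c hc
  by_contra hcon
  push Not at hcon
  obtain ⟨j, hj⟩ := hcon
  obtain ⟨i₀, -, hmax⟩ := Finset.exists_max_image Finset.univ (fun i => A.valuation (c i))
    ⟨j, Finset.mem_univ j⟩
  have hi₀ : c i₀ ≠ 0 := by
    intro h0
    have h1 := hmax j (Finset.mem_univ j)
    rw [h0, map_zero] at h1
    exact hj ((map_eq_zero _).mp (le_antisymm h1 zero_le))
  -- the normalised coefficients
  have ha : ∀ i, (c i₀)⁻¹ * c i ∈ A := by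
    intro i
    rw [← ValuationSubring.valuation_le_one_iff, map_mul, map_inv₀]
    have h1 := hmax i (Finset.mem_univ i)
    have h2 : A.valuation (c i₀) ≠ 0 := (map_ne_zero _).mpr hi₀
    calc (A.valuation (c i₀))⁻¹ * A.valuation (c i)
        ≤ (A.valuation (c i₀))⁻¹ * A.valuation (c i₀) := by gcongr
      _ = 1 := inv_mul_cancel₀ h2
  have hsum : ∑ i, algebraMap Qb (FLb N) ((c i₀)⁻¹ * c i) * u i = 0 := by
    have : ∑ i, algebraMap Qb (FLb N) ((c i₀)⁻¹ * c i) * u i =
        algebraMap Qb (FLb N) (c i₀)⁻¹ * ∑ i, c i • u i := by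
      rw [Finset.mul_sum]
      apply Finset.sum_congr rfl
      intro i _
      rw [map_mul, Algebra.smul_def]; ring
    rw [this, hc, mul_zero]
  -- reduce at `V_∞`
  have hoo : ∑ i, algebraMap (kRes A) Foo (IsLocalRing.residue A ⟨_, ha i⟩) *
      G.redOo ⟨u i, hu i⟩ = 0 := by
    have h1 : (∑ i, (⟨algebraMap Qb (FLb N) ((c i₀)⁻¹ * c i), hcoo _ (ha i)⟩ : G.Voo) *
        ⟨u i, hu i⟩) = 0 := by
      apply Subtype.ext
      rw [AddSubmonoidClass.coe_finsetSum]
      exact hsum
    have h2 := congrArg G.redOo h1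
    rw [map_sum, map_zero] at h2
    rw [← h2]
    apply Finset.sum_congr rfl
    intro i _
    rw [map_mul, hroo ⟨_, ha i⟩ (hcoo _ (ha i))]
  have hzero : ∑ i, algebraMap (kRes A) F0 (IsLocalRing.residue A ⟨_, ha i⟩) *
      G.red0 ⟨u i, hu0 i⟩ = 0 := by
    have h1 : (∑ i, (⟨algebraMap Qb (FLb N) ((c i₀)⁻¹ * c i), hc0 _ (ha i)⟩ : G.V0) *
        ⟨u i, hu0 i⟩) = 0 := by
      apply Subtype.ext
      rw [AddSubmonoidClass.coe_finsetSum]
      exact hsum
    have h2 := congrArg G.red0 h1
    rw [map_sum, map_zero] at h2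
    rw [← h2]
    apply Finset.sum_congr rfl
    intro i _
    rw [map_mul, hr0 ⟨_, ha i⟩ (hc0 _ (ha i))]
  have hrel : ∑ i, (IsLocalRing.residue A ⟨_, ha i⟩) •
      ((G.redOo ⟨u i, hu i⟩, G.red0 ⟨u i, hu0 i⟩) : Foo × F0) = 0 := by
    apply Prod.ext
    · rw [Prod.fst_sum]
      simp only [Algebra.smul_def]
      exact hoo
    · rw [Prod.snd_sum]
      simp only [Algebra.smul_def]
      exact hzero
  have h3 := (Fintype.linearIndependent_iff.mp hli) _ hrel i₀
  have h4 : (⟨(c i₀)⁻¹ * c i₀, ha i₀⟩ : A) = 1 := Subtype.ext (inv_mul_cancel₀ hi₀)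
  rw [h4, map_one] at h3
  exact one_ne_zero h3

/-! ### [NC] -/

/-- **[NC]** : `g + 1 ≤ g_∞ + g_0 + #nodes` from the anchor lift. -/
theorem nodalNC : NodalNCStatement := by
  intro N p A Foo F0 _ _ _ _ ι G g goo g0 _ _ H hfin R Roo R0 hAL
  haveI := hfin
  obtain ⟨D₀, hnode, hdeg, n₀, hlift⟩ := hAL
  obtain ⟨c, hc⟩ := R.eq_of_large
  -- the multiple
  obtain ⟨n, hn₀, hcn⟩ : ∃ n : ℕ, n₀ ≤ n ∧ c ≤ Divisor.degree (n • D₀) := by
    refine ⟨max n₀ c.toNat, le_max_left _ _, ?_⟩
    rw [map_nsmul, nsmul_eq_mul]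
    have h1 : c ≤ ((max n₀ c.toNat : ℕ) : ℤ) :=
      le_trans (Int.self_le_toNat c) (Int.ofNat_le.mpr (le_max_right _ _))
    have h2 : (0 : ℤ) ≤ ((max n₀ c.toNat : ℕ) : ℤ) := Int.natCast_nonneg _
    nlinarith
  have e := hc (n • D₀) hcn
  have hnode' : ∀ P ν, G.r P = NPt.node ν → (n • D₀) P = 0 := by
    intro P ν hP
    rw [Finsupp.smul_apply, hnode P ν hP, smul_zero]
  have hDoo : ∀ ν, pushOo G (n • D₀) (G.nOo ν) ≤ 0 := fun ν =>
    le_of_eq (nc_pushOo_node G H.r_oo _ ν)
  have hD0 : ∀ ν, pushZero G (n • D₀) (G.n0 ν) ≤ 0 := fun ν =>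
    le_of_eq (nc_pushZero_node G H.r_zero _ ν)
  have h1 := gluedSpace_finrank_ge G Roo R0 _ _ hDoo hD0
  have h2 := Roo.riemann (pushOo G (n • D₀))
  have h3 := R0.riemann (pushZero G (n • D₀))
  have h4 := nc_degree_push_of_node G R.deg_one Roo.deg_one R0.deg_one (n • D₀) hnode'
  -- lifting a basis
  have h5 : Module.finrank (kRes A) ↥(gluedSpace G (pushOo G (n • D₀)) (pushZero G (n • D₀))) ≤
      Module.finrank Qb ↥(riemannRochSpace (n • D₀)) := by
    haveI := nc_glued_finite G Roo R0 (pushOo G (n • D₀)) (pushZero G (n • D₀))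
    haveI := R.finite (n • D₀)
    let b := Module.finBasis (kRes A) ↥(gluedSpace G (pushOo G (n • D₀)) (pushZero G (n • D₀)))
    choose u hu hu0 huL hr1 hr2 using fun i =>
      hlift n hn₀ ((b i : ↥(gluedSpace G (pushOo G (n • D₀)) (pushZero G (n • D₀)))) : Foo × F0)
        (b i).2
    have hb : LinearIndependent (kRes A) (fun i =>
        ((b i : ↥(gluedSpace G (pushOo G (n • D₀)) (pushZero G (n • D₀)))) : Foo × F0)) :=
      b.linearIndependent.map' (Submodule.subtype _) (Submodule.ker_subtype _)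
    have hpair : (fun i => ((G.redOo ⟨u i, hu i⟩, G.red0 ⟨u i, hu0 i⟩) : Foo × F0)) =
        fun i => ((b i : ↥(gluedSpace G (pushOo G (n • D₀)) (pushZero G (n • D₀)))) :
          Foo × F0) := by
      funext i
      exact Prod.ext (hr1 i) (hr2 i)
    have hli : LinearIndependent Qb u :=
      nc_lift_indep G (fun c hc => (H.const_oo c).mpr hc) (fun c hc => (H.const_zero c).mpr hc)
        H.red_const_oo H.red_const_zero u hu hu0 (by rw [hpair]; exact hb)
    have hli' : LinearIndependent Qb
        (fun i => (⟨u i, huL i⟩ : ↥(riemannRochSpace (n • D₀)))) := by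
      apply LinearIndependent.of_comp (Submodule.subtype _)
      exact hli
    have := hli'.fintype_card_le_finrank
    simpa using this
  have h5' : (Module.finrank (kRes A)
      ↥(gluedSpace G (pushOo G (n • D₀)) (pushZero G (n • D₀))) : ℤ) ≤
      (Module.finrank Qb ↥(riemannRochSpace (n • D₀)) : ℤ) := by
    exact_mod_cast h5
  have : (g : ℤ) + 1 ≤ (goo : ℤ) + g0 + Nat.card ι := by omega
  exact_mod_cast this

end Fermat.Agent.H87.ORD
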