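/-
P-ORD (S33), row [NS] (helper87): existence of non-special base points on the two components of
the nodal special fibre.  Pure `RRHyp` statement over the residue field (no model input);
corollary of helper58's `RRHyp.exists_nonspecial`.

* `exists_ns_zero`  (NS1): `g` distinct places `T` outside a given finite set with
  `L(∑ T) = k` (only the constants).
* `exists_ns_oo`    (NS2): for a non-empty finite set `nodes`, `g + s - 1` distinct places `T`
  outside a given finite set and outside the nodes with `L(∑ T - ∑ nodes) = 0`.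
* `exists_ns_oo_mem` : the same in element form (`f ∈ L(∑ T)` vanishing at every node is `0`).
* `exists_ns_pair` : both at once, for two function fields.
-/
import Fermat.Agent.H58.RR.NonSpecial

set_option autoImplicit false
set_option linter.style.haveILetI false

noncomputable section

open AlgebraicCurve

namespace Fermat.Agent.H87.ORD

open Fermat.Agent.H58

variable {K F : Type*} [Field K] [Field F] [Algebra K F]

/-- `dim H¹(0) = g`. -/
theorem ns_finrank_H1_zero (h : RRHyp K F) :
    Module.finrank K (H1 (0 : Divisor K F)) = genusFF K F := by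
  haveI := h.principal
  obtain ⟨v₀⟩ := h.exists_place
  have h1 := h.finrank_H1_eq (0 : Divisor K F)
  rw [rr_finrank_zero h.deg_one v₀, map_zero] at h1
  push_cast at h1
  omega

/-- **(NS1)**: there are `g` distinct places, outside any given finite set, whose sum `B`
satisfies `L(B) = k`. -/
theorem exists_ns_zero (h : RRHyp K F) [Infinite K] (S : Finset (Place K F)) :
    ∃ T : Finset (Place K F), T.card = genusFF K F ∧ Disjoint T S ∧
      ∀ f ∈ riemannRochSpace (rrSum T), ∃ c : K, f = algebraMap K F c := by
  haveI := h.principal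
  obtain ⟨v₀⟩ := h.exists_place
  obtain ⟨T, hTcard, hTS, hL, -⟩ :=
    h.exists_nonspecial (0 : Divisor K F) S (genusFF K F) (ns_finrank_H1_zero h).ge
  refine ⟨T, hTcard, hTS, fun f hf => ?_⟩
  rw [zero_add] at hL
  rw [hL] at hf
  exact (rr_mem_zero_iff h.deg_one v₀).mp hf

/-- `dim H¹(-∑ nodes) = g + s - 1` for a non-empty set of `s` nodes. -/
theorem ns_finrank_H1_neg (h : RRHyp K F) (nodes : Finset (Place K F))
    (hs : nodes.Nonempty) :
    Module.finrank K (H1 (-rrSum nodes)) + 1 = genusFF K F + nodes.card := by
  haveI := h.principal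
  have hdeg : Divisor.degree (-rrSum nodes) = -(nodes.card : ℤ) := by
    rw [map_neg, rr_degree_rrSum h.deg_one]
  have hneg : Divisor.degree (-rrSum nodes) < 0 := by
    rw [hdeg]
    have : 0 < nodes.card := Finset.card_pos.mpr hs
    omega
  have hbot := rr_space_eq_bot_of_degree_neg hneg
  have h1 := h.finrank_H1_eq (-rrSum nodes)
  rw [hbot, finrank_bot, hdeg] at h1
  push_cast at h1
  omega

/-- **(NS2)**: for a non-empty finite set of nodes (`s` of them) there are `g + s - 1`
distinct places, outside any given finite set and outside the nodes, whose sum `B` satisfies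
`L(B - ∑ nodes) = 0`. -/
theorem exists_ns_oo (h : RRHyp K F) [Infinite K] (nodes : Finset (Place K F))
    (hs : nodes.Nonempty) (S : Finset (Place K F)) :
    ∃ T : Finset (Place K F), T.card + 1 = genusFF K F + nodes.card ∧ Disjoint T S ∧
      Disjoint T nodes ∧ riemannRochSpace (rrSum T - rrSum nodes) = ⊥ := by
  classical
  haveI := h.principal
  have hH := ns_finrank_H1_neg h nodes hs
  obtain ⟨T, hTcard, hTS, hL, -⟩ :=
    h.exists_nonspecial (-rrSum nodes) (S ∪ nodes) (Module.finrank K (H1 (-rrSum nodes)))
      le_rfl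
  have hneg : Divisor.degree (-rrSum nodes) < 0 := by
    rw [map_neg, rr_degree_rrSum h.deg_one]
    have : 0 < nodes.card := Finset.card_pos.mpr hs
    omega
  refine ⟨T, by rw [hTcard]; exact hH, ?_, ?_, ?_⟩
  · exact Finset.disjoint_of_subset_right Finset.subset_union_left hTS
  · exact Finset.disjoint_of_subset_right Finset.subset_union_right hTS
  · have he : rrSum T - rrSum nodes = -rrSum nodes + rrSum T := by abel
    rw [he, hL]
    exact rr_space_eq_bot_of_degree_neg hneg

/-- membership in `L(B - ∑ nodes)` from membership in `L(B)` and vanishing at the nodes, when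
the nodes are disjoint from the support of `B = ∑ T`. -/
theorem ns_mem_sub_of_vanish (T nodes : Finset (Place K F)) (hd : Disjoint T nodes) {f : F}
    (hf : f ∈ riemannRochSpace (rrSum T)) (hv : ∀ v ∈ nodes, f = 0 ∨ 0 < v.ord f) :
    f ∈ riemannRochSpace (rrSum T - rrSum nodes) := by
  classical
  rw [mem_riemannRochSpace_iff] at hf ⊢
  intro v
  rcases hf v with h0 | h1
  · exact Or.inl h0
  by_cases hvn : v ∈ nodes
  · rcases hv v hvn with h0 | hpos
    · exact Or.inl h0
    right
    have hvT : v ∉ T := fun hh => (Finset.disjoint_left.mp hd) hh hvn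
    have e1 : rrSum T v = 0 := rrSum_apply_of_notMem hvT
    have e2 : rrSum nodes v = 1 := by
      rw [rrSum, Finsupp.finsetSum_apply, Finset.sum_eq_single v]
      · simp
      · intro w _ hwv
        rw [Finsupp.single_apply, if_neg hwv]
      · intro hh
        exact absurd hvn hh
    rw [Finsupp.sub_apply, e1, e2]
    omega
  · right
    have e2 : rrSum nodes v = 0 := rrSum_apply_of_notMem hvn
    rw [Finsupp.sub_apply, e2, sub_zero]
    exact h1

/-- **(NS2), element form**: a function of `L(∑ T)` vanishing at every node is zero. -/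
theorem exists_ns_oo_mem (h : RRHyp K F) [Infinite K] (nodes : Finset (Place K F))
    (hs : nodes.Nonempty) (S : Finset (Place K F)) :
    ∃ T : Finset (Place K F), T.card + 1 = genusFF K F + nodes.card ∧ Disjoint T S ∧
      Disjoint T nodes ∧
      ∀ f ∈ riemannRochSpace (rrSum T), (∀ v ∈ nodes, f = 0 ∨ 0 < v.ord f) → f = 0 := by
  obtain ⟨T, hc, hS, hn, hbot⟩ := exists_ns_oo h nodes hs S
  refine ⟨T, hc, hS, hn, fun f hf hv => ?_⟩
  have := ns_mem_sub_of_vanish T nodes hn hf hv
  rw [hbot, Submodule.mem_bot] at this
  exact this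

/-- **[NS]**: non-special base points on both components at once.  `Foo`, `F0` are the
function fields of the two components, `nodesOo` the branches of the nodes on `C_∞`. -/
theorem exists_ns_pair {Foo F0 : Type*} [Field Foo] [Field F0] [Algebra K Foo] [Algebra K F0]
    [Infinite K] (hoo : RRHyp K Foo) (h0 : RRHyp K F0)
    (nodesOo : Finset (Place K Foo)) (hs : nodesOo.Nonempty)
    (Soo : Finset (Place K Foo)) (S0 : Finset (Place K F0)) :
    ∃ (Too : Finset (Place K Foo)) (T0 : Finset (Place K F0)),
      Too.card + 1 = genusFF K Foo + nodesOo.card ∧ T0.card = genusFF K F0 ∧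
      Disjoint Too Soo ∧ Disjoint Too nodesOo ∧ Disjoint T0 S0 ∧
      (∀ f ∈ riemannRochSpace (rrSum T0), ∃ c : K, f = algebraMap K F0 c) ∧
      riemannRochSpace (rrSum Too - rrSum nodesOo) = ⊥ ∧
      ∀ f ∈ riemannRochSpace (rrSum Too), (∀ v ∈ nodesOo, f = 0 ∨ 0 < v.ord f) → f = 0 := by
  obtain ⟨Too, hc, hS, hn, hbot⟩ := exists_ns_oo hoo nodesOo hs Soo
  obtain ⟨T0, hc0, hS0, hL0⟩ := exists_ns_zero h0 S0
  refine ⟨Too, T0, hc, hc0, hS, hn, hS0, hL0, hbot, fun f hf hv => ?_⟩
  have := ns_mem_sub_of_vanish Too nodesOo hn hf hv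
  rw [hbot, Submodule.mem_bot] at this
  exact this

end Fermat.Agent.H87.ORD

end
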