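/-
P-ORD (S33), row [NS] adapter (helper87): existence of a `NodalBase` (helper18's structure,
`Fermat.Agent.H18.ORD.NodalBal`) from Riemann's theorem on the two components.

`exists_nodalBase` : for a nodal datum `G` with finitely many (and at least one) nodes, `RRHyp`
on both component function fields and an infinite residue field, there are finite sets of
places `T∞`, `T0` (avoiding the node branches and any given finite sets) such that
`NodalBase G (∑ T∞) (∑ T0)`, with `#T∞ + 1 = g(F∞) + s` and `#T0 = g(F0)`, where `s` is the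
number of node branches on `C_∞`.
-/
import Fermat.Agent.H87.ORD.NodalNS
import Fermat.Agent.H18.ORD.NodalBal

set_option autoImplicit false
set_option linter.style.haveILetI false

noncomputable section

open AlgebraicCurve ModularCurve

namespace Fermat.Agent.H87.ORD

open Fermat.Agent.H58 Fermat.Agent.H72.FF Fermat.Agent.H18.ORD

variable {N : ℕ} {A : ValuationSubring Qb} {Foo F0 : Type} [Field Foo] [Field F0]
  [Algebra (kRes A) Foo] [Algebra (kRes A) F0] {ι : Type}

/-- the value of `rrSum T` at a place is `0` or `1` -/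
theorem rrSum_apply_nonneg {K F : Type*} [Field K] [Field F] [Algebra K F]
    (T : Finset (Place K F)) (v : Place K F) : 0 ≤ rrSum T v := by
  have h := rrSum_nonneg T
  rw [Finsupp.le_def] at h
  simpa using h v

/-- **[NS] in helper18's shape.** -/
theorem exists_nodalBase (G : NodalData N A Foo F0 ι) [Finite ι] [Nonempty ι]
    [Infinite (kRes A)] (hoo : RRHyp (kRes A) Foo) (h0 : RRHyp (kRes A) F0)
    (Soo : Finset (Place (kRes A) Foo)) (S0 : Finset (Place (kRes A) F0)) :
    ∃ (Too : Finset (Place (kRes A) Foo)) (T0 : Finset (Place (kRes A) F0)),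
      NodalBase G (rrSum Too) (rrSum T0) ∧
      Too.card + 1 = genusFF (kRes A) Foo + (Set.range G.nOo).ncard ∧
      T0.card = genusFF (kRes A) F0 ∧
      Disjoint Too Soo ∧ Disjoint T0 S0 ∧
      (∀ ν, G.nOo ν ∉ Too) ∧ (∀ ν, G.n0 ν ∉ T0) := by
  classical
  haveI : Fintype ι := Fintype.ofFinite ι
  set nodesOo : Finset (Place (kRes A) Foo) := Finset.univ.image G.nOo with hnOo
  set nodes0 : Finset (Place (kRes A) F0) := Finset.univ.image G.n0 with hn0
  have hne : nodesOo.Nonempty := by
    obtain ⟨ν⟩ := (inferInstance : Nonempty ι)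
    exact ⟨G.nOo ν, Finset.mem_image.mpr ⟨ν, Finset.mem_univ _, rfl⟩⟩
  obtain ⟨Too, hc, hS, hn, -, hmem⟩ :
      ∃ T : Finset (Place (kRes A) Foo), T.card + 1 = genusFF (kRes A) Foo + nodesOo.card ∧
        Disjoint T Soo ∧ Disjoint T nodesOo ∧ riemannRochSpace (rrSum T - rrSum nodesOo) = ⊥ ∧
        ∀ f ∈ riemannRochSpace (rrSum T), (∀ v ∈ nodesOo, f = 0 ∨ 0 < v.ord f) → f = 0 := by
    obtain ⟨T, hc, hS, hn, hbot⟩ := exists_ns_oo hoo nodesOo hne Soo
    refine ⟨T, hc, hS, hn, hbot, fun f hf hv => ?_⟩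
    have := ns_mem_sub_of_vanish T nodesOo hn hf hv
    rw [hbot, Submodule.mem_bot] at this
    exact this
  obtain ⟨T0, hc0, hS0, hL0⟩ := exists_ns_zero h0 (S0 ∪ nodes0)
  have hTooN : ∀ ν, G.nOo ν ∉ Too := fun ν hh =>
    (Finset.disjoint_left.mp hn) hh (Finset.mem_image.mpr ⟨ν, Finset.mem_univ _, rfl⟩)
  have hT0N : ∀ ν, G.n0 ν ∉ T0 := fun ν hh =>
    (Finset.disjoint_left.mp hS0) hh
      (Finset.mem_union_right _ (Finset.mem_image.mpr ⟨ν, Finset.mem_univ _, rfl⟩))
  have hcard : nodesOo.card = (Set.range G.nOo).ncard := by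
    rw [← Set.ncard_coe_finset]
    congr 1
    ext Q
    simp [hnOo]
  refine ⟨Too, T0, ?_, by rw [hc, hcard], hc0, hS,
    Finset.disjoint_of_subset_right Finset.subset_union_left hS0, hTooN, hT0N⟩
  exact
    { nonneg_oo := fun Q => rrSum_apply_nonneg Too Q
      nonneg_zero := fun Q => rrSum_apply_nonneg T0 Q
      node_oo := fun ν => rrSum_apply_of_notMem (hTooN ν)
      node_zero := fun ν => rrSum_apply_of_notMem (hT0N ν)
      ns1 := hL0
      ns2 := fun x hx hv => hmem x hx (fun v hvn => by
        obtain ⟨ν, -, rfl⟩ := Finset.mem_image.mp hvn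
        rcases hv ν with h | h
        · exact Or.inl h
        · exact Or.inr (by omega)) }

end Fermat.Agent.H87.ORD

end
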