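import Fermat.Agent.H18.ORD.NodalDefs

/-!
# P-ORD, block B1 : a nodal reduction has finitely many nodes (helper87)

`nodal_finite_nodes` : `NodalRvHyp p G` (with `p ≠ 0`) and the existence of principal divisors
on the three function fields imply `Finite ι`.  So the field `finite_nodes` of
`Fermat.Agent.H72.ORD.NodalSetup` is a consequence of the fields `rv`, `pkgL`, `rrOo`, `rrZero`.

Proof.  By `ne` there is `f` in exactly one of `V_∞`, `V_0`; normalise `f = c₁ u = c₂ w`
(`norm_oo`, `norm_zero`), so `w = c u` with `c⁻¹ ∉ A` (resp. `c ∉ A`).  By the slope inequality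
`node_le`, at every node `ν` carrying no pole of `u` the reduction `red_0 w` (resp. `red_∞ u`)
vanishes at the branch of `ν`.  A nonzero function has finitely many zeros and poles, and the
branches of distinct nodes are distinct.
-/

set_option autoImplicit false
set_option linter.style.haveILetI false

noncomputable section

open AlgebraicCurve ModularCurve

namespace Fermat.Agent.H87.ORD

open Fermat.Agent.H72.FF Fermat.Agent.H18.ORD

variable {N : ℕ} {A : ValuationSubring Qb} {Foo F0 : Type} [Field Foo] [Field F0]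
  [Algebra (kRes A) Foo] [Algebra (kRes A) F0] {ι : Type}

/-- `π ^ b * d ∈ A` with `π ∈ A`, `d ∉ A` forces `1 ≤ b`. -/
theorem nf_one_le_of_zpow_mul_mem (A : ValuationSubring Qb) {π : Qb} (hπ : π ∈ A) (hπ0 : π ≠ 0)
    {b : ℤ} {d : Qb} (hd : d ∉ A) (h : π ^ b * d ∈ A) : 1 ≤ b := by
  by_contra hb
  push Not at hb
  have hb' : 0 ≤ -b := by omega
  have h1 : π ^ (-b) ∈ A := by
    obtain ⟨n, hn⟩ := Int.eq_ofNat_of_zero_le hb'
    rw [hn, zpow_natCast]
    exact A.pow_mem hπ n
  have h2 : d = π ^ (-b) * (π ^ b * d) := by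
    rw [← mul_assoc, ← zpow_add₀ hπ0, neg_add_cancel, zpow_zero, one_mul]
  exact hd (h2 ▸ A.mul_mem _ _ h1 h)

/-- finiteness of the set of nodes from a vanishing criterion -/
theorem nf_finite_of_vanish (G : NodalData N A Foo F0 ι)
    (hF : HasPrincipalDivisors Qb (FLb N)) (u : FLb N) (hu : u ≠ 0)
    (Z : Set ι) (hZ : Z.Finite)
    (h : ∀ ν : ι, (∀ P, G.r P = NPt.node ν → 0 ≤ P.ord u) → ν ∈ Z) : Finite ι := by
  classical
  obtain ⟨D, hD, -⟩ := hF.exists_divisor u hu
  have hS1 : (⋃ P ∈ (D.support : Set (Place Qb (FLb N))), {ν : ι | G.r P = NPt.node ν}).Finite := by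
    apply Set.Finite.biUnion (Finset.finite_toSet _)
    intro P _
    apply Set.Subsingleton.finite
    intro ν hν ν' hν'
    have h1 : G.r P = NPt.node ν := hν
    have h2 : G.r P = NPt.node ν' := hν'
    rw [h1] at h2
    exact NPt.node.inj h2
  have huniv : (Set.univ : Set ι) ⊆
      (⋃ P ∈ (D.support : Set (Place Qb (FLb N))), {ν : ι | G.r P = NPt.node ν}) ∪ Z := by
    intro ν _
    by_cases hν : ∀ P, G.r P = NPt.node ν → 0 ≤ P.ord u
    · exact Or.inr (h ν hν)
    · push Not at hν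
      obtain ⟨P, hP, hneg⟩ := hν
      refine Or.inl ?_
      rw [Set.mem_iUnion₂]
      refine ⟨P, ?_, hP⟩
      rw [Finset.mem_coe, Finsupp.mem_support_iff, hD P]
      omega
  exact Set.finite_univ_iff.mp ((hS1.union hZ).subset huniv)

/-- the zeros of a nonzero function at the branches of the nodes : finitely many nodes -/
theorem nf_zero_set_finite {K F : Type*} [Field K] [Field F] [Algebra K F]
    (hK : HasPrincipalDivisors K F) (n : ι → Place K F) (hn : Function.Injective n)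
    (x : F) (hx : x ≠ 0) : {ν : ι | 1 ≤ (n ν).ord x}.Finite := by
  classical
  obtain ⟨D, hD, -⟩ := hK.exists_divisor x hx
  have h1 : (n ⁻¹' (D.support : Set (Place K F))).Finite :=
    Set.Finite.preimage hn.injOn (Finset.finite_toSet _)
  apply h1.subset
  intro ν hν
  have hν' : 1 ≤ (n ν).ord x := hν
  rw [Set.mem_preimage, Finset.mem_coe, Finsupp.mem_support_iff, hD (n ν)]
  omega

/-- **A nodal reduction has finitely many nodes.** -/
theorem nodal_finite_nodes {p : ℕ} (hp : p ≠ 0) (G : NodalData N A Foo F0 ι)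
    (H : NodalRvHyp p G) (hF : HasPrincipalDivisors Qb (FLb N))
    (hoo : HasPrincipalDivisors (kRes A) Foo) (h0 : HasPrincipalDivisors (kRes A) F0) :
    Finite ι := by
  have hpA : (p : Qb) ∈ A := natCast_mem A p
  have hp0 : (p : Qb) ≠ 0 := Nat.cast_ne_zero.mpr hp
  -- an element in exactly one of the two rings
  have hex : ∃ f : FLb N, (f ∈ G.Voo ∧ f ∉ G.V0) ∨ (f ∈ G.V0 ∧ f ∉ G.Voo) := by
    by_contra hcon
    push Not at hcon
    apply H.ne
    ext f
    constructor
    · intro hf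
      exact (hcon f).1 hf
    · intro hf
      exact (hcon f).2 hf
  obtain ⟨f, hf⟩ := hex
  have hf0 : f ≠ 0 := by
    rintro rfl
    rcases hf with ⟨-, h⟩ | ⟨-, h⟩
    · exact h G.V0.zero_mem
    · exact h G.Voo.zero_mem
  obtain ⟨c₁, u, hc₁, hu, hfu⟩ := H.norm_oo f hf0
  obtain ⟨c₂, w, hc₂, hw, hfw⟩ := H.norm_zero f hf0
  have hA1 : algebraMap Qb (FLb N) c₁ ≠ 0 := by rw [Ne, map_eq_zero]; exact hc₁
  have hA2 : algebraMap Qb (FLb N) c₂ ≠ 0 := by rw [Ne, map_eq_zero]; exact hc₂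
  have hu0 : (u : FLb N) ≠ 0 := by
    intro h
    apply hu
    have : u = 0 := Subtype.ext h
    rw [this, map_zero]
  have hw0 : (w : FLb N) ≠ 0 := by
    intro h
    apply hw
    have : w = 0 := Subtype.ext h
    rw [this, map_zero]
  have hwu : (w : FLb N) = algebraMap Qb (FLb N) (c₂⁻¹ * c₁) * (u : FLb N) := by
    have h1 : algebraMap Qb (FLb N) c₂ * (w : FLb N) =
        algebraMap Qb (FLb N) c₁ * (u : FLb N) := by rw [← hfu, ← hfw]
    rw [map_mul, map_inv₀, mul_assoc, ← h1, ← mul_assoc, inv_mul_cancel₀ hA2, one_mul]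
  rcases hf with ⟨hfoo, hfz⟩ | ⟨hfz, hfoo⟩
  · -- `f ∈ V_∞ \ V_0` : `c₁ ∈ A`, `c₂ ∉ A`, zeros of `red_0 w`
    have h1 : c₁ ∈ A := by
      rw [← H.const_oo]
      have : algebraMap Qb (FLb N) c₁ = f * (u : FLb N)⁻¹ := by
        rw [hfu, mul_assoc, mul_inv_cancel₀ hu0, mul_one]
      rw [this]
      exact G.Voo.mul_mem hfoo (H.inv_oo u hu)
    have h2 : c₂ ∉ A := by
      intro h
      apply hfz
      rw [hfw]
      exact G.V0.mul_mem ((H.const_zero c₂).mpr h) w.2
    have h3 : (c₂⁻¹ * c₁)⁻¹ ∉ A := by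
      intro h
      apply h2
      have : c₂ = (c₂⁻¹ * c₁)⁻¹ * c₁ := by
        rw [mul_inv, inv_inv, mul_assoc, inv_mul_cancel₀ hc₁, mul_one]
      rw [this]
      exact A.mul_mem _ _ h h1
    refine nf_finite_of_vanish G hF (u : FLb N) hu0 {ν | 1 ≤ (G.n0 ν).ord (G.red0 w)}
      (nf_zero_set_finite h0 G.n0 H.n0_inj _ hw) (fun ν hν => ?_)
    have h4 := (H.node_le u w (c₂⁻¹ * c₁) hu hw hwu ν hν).2
    exact nf_one_le_of_zpow_mul_mem A hpA hp0 h3 h4
  · -- `f ∈ V_0 \ V_∞` : `c₂ ∈ A`, `c₁ ∉ A`, zeros of `red_∞ u`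
    have h1 : c₂ ∈ A := by
      rw [← H.const_zero]
      have : algebraMap Qb (FLb N) c₂ = f * (w : FLb N)⁻¹ := by
        rw [hfw, mul_assoc, mul_inv_cancel₀ hw0, mul_one]
      rw [this]
      exact G.V0.mul_mem hfz (H.inv_zero w hw)
    have h2 : c₁ ∉ A := by
      intro h
      apply hfoo
      rw [hfu]
      exact G.Voo.mul_mem ((H.const_oo c₁).mpr h) u.2
    have h3 : c₂⁻¹ * c₁ ∉ A := by
      intro h
      apply h2
      have : c₁ = c₂ * (c₂⁻¹ * c₁) := by
        rw [← mul_assoc, mul_inv_cancel₀ hc₂, one_mul]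
      rw [this]
      exact A.mul_mem _ _ h1 h
    refine nf_finite_of_vanish G hF (u : FLb N) hu0 {ν | 1 ≤ (G.nOo ν).ord (G.redOo u)}
      (nf_zero_set_finite hoo G.nOo H.nOo_inj _ hu) (fun ν hν => ?_)
    have h4 := (H.node_le u w (c₂⁻¹ * c₁) hu hw hwu ν hν).1
    exact nf_one_le_of_zpow_mul_mem A hpA hp0 h3 h4

end Fermat.Agent.H87.ORD
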