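import Fermat.Agent.H84.ORD.NodalSpecFinal

/-!
# P-ORD, block B1-ANCHOR, [CRT] step C : the local lift at a centre (helper87)

For the concrete nodal data `nmG` of `X₀(M p)` (helper84).  Let `P` be a place of `F`,
`B̄ = nmChart (M p) A (nmY A P)` its chart and `𝔪 = nmCentre A P` its centre.

`nm_local_lift` : a pair `(a, b) ∈ F_∞ × F_0` which is regular at the places over `𝔪` and glued
at `𝔪` (when `𝔪` is a node) is locally the pair of reductions of an element of `B̄_𝔪` :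
there are `s, f ∈ B̄`, `s ∉ 𝔪`, with `red_∞ f = red_∞ s * a` and `red_0 f = red_0 s * b`.

* smooth centre on `C_∞` only : [DVR] gives `a = red_∞ f₁ / red_∞ s₁`; multiply by
  `t ∈ 𝔮_0 ∩ B̄ ∖ 𝔪`;
* node : with `X, Y` of [XY] and `κ` the common value,
  `f = κ̃ s₁ s₂ + Y f₁ s₂ + X f₂ s₁`, `s = s₁ s₂`.
-/

set_option autoImplicit false
set_option linter.style.haveILetI false
set_option linter.unusedSectionVars false
set_option maxHeartbeats 800000

noncomputable section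

open AlgebraicCurve ModularCurve

namespace Fermat.Agent.H87.ORD

open Fermat.Agent.H72.FF Fermat.Agent.H18.ORD Fermat.Agent.H66 Fermat.Agent.H84.ORD

section Val

variable {K F : Type*} [Field K] [Field F] [Algebra K F]

/-- the maximal ideal of a place is prime -/
theorem cl_nonunits_prime (v : Place K F) {x y : F} (hx : x ∈ v.toValuationSubring)
    (hy : y ∈ v.toValuationSubring) (hxy : x * y ∈ v.toValuationSubring.nonunits) :
    x ∈ v.toValuationSubring.nonunits ∨ y ∈ v.toValuationSubring.nonunits := by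
  by_contra hcon
  push Not at hcon
  obtain ⟨h1, h2⟩ := hcon
  rw [ValuationSubring.mem_nonunits_iff] at h1 h2 hxy
  have e1 : v.toValuationSubring.valuation x = 1 :=
    le_antisymm ((ValuationSubring.valuation_le_one_iff _ _).mpr hx) (not_lt.mp h1)
  have e2 : v.toValuationSubring.valuation y = 1 :=
    le_antisymm ((ValuationSubring.valuation_le_one_iff _ _).mpr hy) (not_lt.mp h2)
  rw [map_mul, e1, e2, one_mul] at hxy
  exact lt_irrefl _ hxy

/-- division by a uniformiser : `x ∈ 𝔪_v`, `ord_v y = 1` ⟹ `x / y ∈ O_v` -/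
theorem cl_div_mem (v : Place K F) {x y : F} (hx : x ∈ v.toValuationSubring.nonunits)
    (hy : v.ord y = 1) : x * y⁻¹ ∈ v.toValuationSubring := by
  have hy0 : y ≠ 0 := by
    rintro rfl
    rw [Place.ord_zero] at hy
    exact absurd hy (by norm_num)
  by_cases hx0 : x = 0
  · rw [hx0, zero_mul]; exact v.toValuationSubring.zero_mem
  · rw [Fermat.Agent.H23.mem_iff_ord]
    refine Or.inr ?_
    rw [Place.ord_mul v hx0 (inv_ne_zero hy0), Place.ord_inv, hy]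
    have h1 : x = 0 ∨ 1 ≤ v.ord x := (Fermat.Agent.H18.ORD.nb_mem_nonunits_iff v x).mp hx
    rcases h1 with h1 | h1
    · exact absurd h1 hx0
    · omega

end Val

variable {M p : ℕ} [NeZero M] [NeZero p] {A : ValuationSubring Qb}

/-- **[CRT], step C : the local lift at the centre of `P`.** -/
theorem nm_local_lift (H : NmBase M p A) (hDo : NmDvrOoStatement M p)
    (hDz : NmDvrZeroStatement M p) (hT : NmTotIdealStatement M p) (hXY : NmCrossStatement M p)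
    (P : Place Qb (FLb (M * p))) (a b : NmF (M * p) A)
    (ha : ∀ Q, NmSpecOo M p A (nmCentre A P) Q → a ∈ Q.toValuationSubring)
    (hb : ∀ Q, NmSpecZero M p H.setup.cop A (nmCentre A P) Q → b ∈ Q.toValuationSubring)
    (hglue : ∀ Q Q', NmSpecOo M p A (nmCentre A P) Q →
      NmSpecZero M p H.setup.cop A (nmCentre A P) Q' →
      ∃ κ : kRes A, a - algebraMap (kRes A) (NmF (M * p) A) κ ∈ Q.toValuationSubring.nonunits ∧
        b - algebraMap (kRes A) (NmF (M * p) A) κ ∈ Q'.toValuationSubring.nonunits) :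
    ∃ (s f : FLb (M * p)) (hs : s ∈ nmChart (M * p) A (nmY A P))
      (hf : f ∈ nmChart (M * p) A (nmY A P)), s ∉ nmMax A P ∧
      nmRedOo (M * p) A ⟨f, H.chart_le_oo P hf⟩ =
        nmRedOo (M * p) A ⟨s, H.chart_le_oo P hs⟩ * a ∧
      nmRed0 M p H.setup.cop A ⟨f, H.chart_le_zero P hf⟩ =
        nmRed0 M p H.setup.cop A ⟨s, H.chart_le_zero P hs⟩ * b := by
  classical
  -- primality of the centre through a place over it
  have primeOo : ∀ Q, NmSpecOo M p A (nmCentre A P) Q → ∀ {x y : FLb (M * p)}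
      (_ : x ∈ nmChart (M * p) A (nmY A P)) (_ : y ∈ nmChart (M * p) A (nmY A P)),
      x ∉ nmMax A P → y ∉ nmMax A P → x * y ∉ nmMax A P := by
    intro Q hQ x y hx hy hxm hym hxy
    have hxyc : x * y ∈ nmChart (M * p) A (nmY A P) := Subring.mul_mem _ hx hy
    have h1 := (H.redOo_mem_nonunits_iff hQ hxyc (H.chart_le_oo P hxyc)).mpr hxy
    have e : (⟨x * y, H.chart_le_oo P hxyc⟩ : gaussOBar (M * p) A) =
        ⟨x, H.chart_le_oo P hx⟩ * ⟨y, H.chart_le_oo P hy⟩ := rfl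
    rw [e, map_mul] at h1
    rcases cl_nonunits_prime Q (H.redOo_mem hQ hx (H.chart_le_oo P hx))
      (H.redOo_mem hQ hy (H.chart_le_oo P hy)) h1 with h2 | h2
    · exact hxm ((H.redOo_mem_nonunits_iff hQ hx (H.chart_le_oo P hx)).mp h2)
    · exact hym ((H.redOo_mem_nonunits_iff hQ hy (H.chart_le_oo P hy)).mp h2)
  have primeZero : ∀ Q, NmSpecZero M p H.setup.cop A (nmCentre A P) Q → ∀ {x y : FLb (M * p)}
      (_ : x ∈ nmChart (M * p) A (nmY A P)) (_ : y ∈ nmChart (M * p) A (nmY A P)),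
      x ∉ nmMax A P → y ∉ nmMax A P → x * y ∉ nmMax A P := by
    intro Q hQ x y hx hy hxm hym hxy
    have hxyc : x * y ∈ nmChart (M * p) A (nmY A P) := Subring.mul_mem _ hx hy
    have h1 := (H.red0_mem_nonunits_iff hQ hxyc (H.chart_le_zero P hxyc)).mpr hxy
    have e : (⟨x * y, H.chart_le_zero P hxyc⟩ : nmV0 M p H.setup.cop A) =
        ⟨x, H.chart_le_zero P hx⟩ * ⟨y, H.chart_le_zero P hy⟩ := rfl
    rw [e, map_mul] at h1
    rcases cl_nonunits_prime Q (H.red0_mem hQ hx (H.chart_le_zero P hx))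
      (H.red0_mem hQ hy (H.chart_le_zero P hy)) h1 with h2 | h2
    · exact hxm ((H.red0_mem_nonunits_iff hQ hx (H.chart_le_zero P hx)).mp h2)
    · exact hym ((H.red0_mem_nonunits_iff hQ hy (H.chart_le_zero P hy)).mp h2)
  by_cases hoo : NmIdealOo M p A P
  · by_cases hz : NmIdealZero M p H.setup.cop A P
    · -- a node
      obtain ⟨hY, X, Y, d, ψ, hXc, hYc, hdc, hψc, hrel, hd, hψ, hXm, hYm, ⟨hXoo, hX0⟩,
        ⟨hYz, hY0⟩, Q, Q', hQ, hQ', ⟨hYoo, hYord⟩, ⟨hXz, hXord⟩⟩ := hXY A H.setup P hoo hz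
      obtain ⟨κ, hκa, hκb⟩ := hglue Q Q' hQ hQ'
      obtain ⟨Q₀, hQ₀, hloc⟩ := hDo A H.setup P hoo
      obtain ⟨Q₀', hQ₀', hloc'⟩ := hDz A H.setup P hz
      have eQ : Q₀ = Q := H.specOo_unique hDo hQ₀ hQ
      have eQ' : Q₀' = Q' := H.specZero_unique hDz hQ₀' hQ'
      subst eQ
      subst eQ'
      obtain ⟨f₁, s₁, hf₁o, hs₁o, hf₁, hs₁, hs₁m, e₁⟩ :=
        hloc _ (cl_div_mem Q₀ hκa hYord)
      obtain ⟨f₂, s₂, hf₂z, hs₂z, hf₂, hs₂, hs₂m, e₂⟩ :=
        hloc' _ (cl_div_mem Q₀' hκb hXord)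
      obtain ⟨κ', hκ'⟩ := IsLocalRing.residue_surjective κ
      rw [← hY] at hXc hYc
      have hκc : algebraMap Qb (FLb (M * p)) (κ' : Qb) ∈ nmChart (M * p) A (nmY A P) :=
        algebraMap_mem_nmChart A (nmY A P) κ'.2
      have hsc : s₁ * s₂ ∈ nmChart (M * p) A (nmY A P) := Subring.mul_mem _ hs₁ hs₂
      have hfc : algebraMap Qb (FLb (M * p)) (κ' : Qb) * s₁ * s₂ + Y * f₁ * s₂ + X * f₂ * s₁ ∈
          nmChart (M * p) A (nmY A P) :=
        Subring.add_mem _ (Subring.add_mem _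
          (Subring.mul_mem _ (Subring.mul_mem _ hκc hs₁) hs₂)
          (Subring.mul_mem _ (Subring.mul_mem _ hYc hf₁) hs₂))
          (Subring.mul_mem _ (Subring.mul_mem _ hXc hf₂) hs₁)
      have hy1 : nmRedOo (M * p) A ⟨Y, hYoo⟩ ≠ 0 := by
        intro h0
        rw [h0, Place.ord_zero] at hYord
        exact absurd hYord (by norm_num)
      have hx1 : nmRed0 M p H.setup.cop A ⟨X, hXz⟩ ≠ 0 := by
        intro h0
        rw [h0, Place.ord_zero] at hXord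
        exact absurd hXord (by norm_num)
      refine ⟨s₁ * s₂, _, hsc, hfc, primeOo Q₀ hQ₀ hs₁ hs₂ hs₁m hs₂m, ?_, ?_⟩
      · have e : (⟨algebraMap Qb (FLb (M * p)) (κ' : Qb) * s₁ * s₂ + Y * f₁ * s₂ + X * f₂ * s₁,
            H.chart_le_oo P hfc⟩ : gaussOBar (M * p) A) =
            ⟨algebraMap Qb (FLb (M * p)) (κ' : Qb), H.oo.const_mem _ κ'.2⟩ *
              ⟨s₁, hs₁o⟩ * ⟨s₂, H.chart_le_oo P hs₂⟩ +
            ⟨Y, hYoo⟩ * ⟨f₁, hf₁o⟩ * ⟨s₂, H.chart_le_oo P hs₂⟩ +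
            ⟨X, hXoo⟩ * ⟨f₂, H.chart_le_oo P hf₂⟩ * ⟨s₁, hs₁o⟩ := rfl
        have e' : (⟨s₁ * s₂, H.chart_le_oo P hsc⟩ : gaussOBar (M * p) A) =
            ⟨s₁, hs₁o⟩ * ⟨s₂, H.chart_le_oo P hs₂⟩ := rfl
        rw [e, e', map_add, map_add, map_mul, map_mul, map_mul, map_mul, map_mul, map_mul,
          map_mul, hX0, H.oo.red_const κ' (H.oo.const_mem _ κ'.2), hκ', e₁]
        field_simp
        ring
      · have e : (⟨algebraMap Qb (FLb (M * p)) (κ' : Qb) * s₁ * s₂ + Y * f₁ * s₂ + X * f₂ * s₁,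
            H.chart_le_zero P hfc⟩ : nmV0 M p H.setup.cop A) =
            ⟨algebraMap Qb (FLb (M * p)) (κ' : Qb), H.zero.const_mem _ κ'.2⟩ *
              ⟨s₁, H.chart_le_zero P hs₁⟩ * ⟨s₂, hs₂z⟩ +
            ⟨Y, hYz⟩ * ⟨f₁, H.chart_le_zero P hf₁⟩ * ⟨s₂, hs₂z⟩ +
            ⟨X, hXz⟩ * ⟨f₂, hf₂z⟩ * ⟨s₁, H.chart_le_zero P hs₁⟩ := rfl
        have e' : (⟨s₁ * s₂, H.chart_le_zero P hsc⟩ : nmV0 M p H.setup.cop A) =
            ⟨s₁, H.chart_le_zero P hs₁⟩ * ⟨s₂, hs₂z⟩ := rfl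
        rw [e, e', map_add, map_add, map_mul, map_mul, map_mul, map_mul, map_mul, map_mul,
          map_mul, hY0, H.zero.red_const κ' (H.zero.const_mem _ κ'.2), hκ', e₂]
        field_simp
        ring
    · -- a smooth centre on `C_∞`
      obtain ⟨Q₀, hQ₀, hloc⟩ := hDo A H.setup P hoo
      obtain ⟨f₁, s₁, hf₁o, hs₁o, hf₁, hs₁, hs₁m, e₁⟩ := hloc a (ha Q₀ hQ₀)
      have hex : ∃ t ∈ nmChart (M * p) A (nmY A P), ∃ ht : t ∈ nmV0 M p H.setup.cop A,
          nmRed0 M p H.setup.cop A ⟨t, ht⟩ = 0 ∧ t ∉ nmMax A P := by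
        by_contra hcon
        apply hz
        intro t ht ht0 hr
        by_contra htm
        exact hcon ⟨t, ht, ht0, hr, htm⟩
      obtain ⟨t, ht, ht0, hrt, htm⟩ := hex
      have hsc : t * s₁ ∈ nmChart (M * p) A (nmY A P) := Subring.mul_mem _ ht hs₁
      have hfc : t * f₁ ∈ nmChart (M * p) A (nmY A P) := Subring.mul_mem _ ht hf₁
      refine ⟨t * s₁, t * f₁, hsc, hfc, primeOo Q₀ hQ₀ ht hs₁ htm hs₁m, ?_, ?_⟩
      · have e : (⟨t * f₁, H.chart_le_oo P hfc⟩ : gaussOBar (M * p) A) =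
            ⟨t, H.chart_le_oo P ht⟩ * ⟨f₁, hf₁o⟩ := rfl
        have e' : (⟨t * s₁, H.chart_le_oo P hsc⟩ : gaussOBar (M * p) A) =
            ⟨t, H.chart_le_oo P ht⟩ * ⟨s₁, hs₁o⟩ := rfl
        rw [e, e', map_mul, map_mul, e₁]
        ring
      · have e : (⟨t * f₁, H.chart_le_zero P hfc⟩ : nmV0 M p H.setup.cop A) =
            ⟨t, ht0⟩ * ⟨f₁, H.chart_le_zero P hf₁⟩ := rfl
        have e' : (⟨t * s₁, H.chart_le_zero P hsc⟩ : nmV0 M p H.setup.cop A) =
            ⟨t, ht0⟩ * ⟨s₁, H.chart_le_zero P hs₁⟩ := rfl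
        rw [e, e', map_mul, map_mul, hrt, zero_mul, zero_mul, zero_mul]
  · -- a smooth centre on `C_0`
    have hz : NmIdealZero M p H.setup.cop A P := (hT A H.setup P).resolve_left hoo
    obtain ⟨Q₀, hQ₀, hloc⟩ := hDz A H.setup P hz
    obtain ⟨f₁, s₁, hf₁z, hs₁z, hf₁, hs₁, hs₁m, e₁⟩ := hloc b (hb Q₀ hQ₀)
    have hex : ∃ t ∈ nmChart (M * p) A (nmY A P), ∃ ht : t ∈ gaussOBar (M * p) A,
        nmRedOo (M * p) A ⟨t, ht⟩ = 0 ∧ t ∉ nmMax A P := by
      by_contra hcon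
      apply hoo
      intro t ht ht0 hr
      by_contra htm
      exact hcon ⟨t, ht, ht0, hr, htm⟩
    obtain ⟨t, ht, htoo, hrt, htm⟩ := hex
    have hsc : t * s₁ ∈ nmChart (M * p) A (nmY A P) := Subring.mul_mem _ ht hs₁
    have hfc : t * f₁ ∈ nmChart (M * p) A (nmY A P) := Subring.mul_mem _ ht hf₁
    refine ⟨t * s₁, t * f₁, hsc, hfc, primeZero Q₀ hQ₀ ht hs₁ htm hs₁m, ?_, ?_⟩
    · have e : (⟨t * f₁, H.chart_le_oo P hfc⟩ : gaussOBar (M * p) A) =
          ⟨t, htoo⟩ * ⟨f₁, H.chart_le_oo P hf₁⟩ := rfl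
      have e' : (⟨t * s₁, H.chart_le_oo P hsc⟩ : gaussOBar (M * p) A) =
          ⟨t, htoo⟩ * ⟨s₁, H.chart_le_oo P hs₁⟩ := rfl
      rw [e, e', map_mul, map_mul, hrt, zero_mul, zero_mul, zero_mul]
    · have e : (⟨t * f₁, H.chart_le_zero P hfc⟩ : nmV0 M p H.setup.cop A) =
          ⟨t, H.chart_le_zero P ht⟩ * ⟨f₁, hf₁z⟩ := rfl
      have e' : (⟨t * s₁, H.chart_le_zero P hsc⟩ : nmV0 M p H.setup.cop A) =
          ⟨t, H.chart_le_zero P ht⟩ * ⟨s₁, hs₁z⟩ := rfl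
      rw [e, e', map_mul, map_mul, e₁]
      ring

end Fermat.Agent.H87.ORD
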