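import Fermat.Agent.H18.ORD.NodalDivDefs
import Fermat.Agent.H87.ORD.NodalNC
import Fermat.Agent.H57.FF.Cramer

/-!
# P-ORD, block B1-LIFT, step [COORD] : linear functionals are bounded on `V ∩ V_∞ ∩ V_0`
(helper87)

`pairBounded : Fermat.Agent.H18.ORD.PairBoundedStatement`.

* `pb_coeff_mem` : if the `w i ∈ V_∞ ∩ V_0` have `k`-linearly independent reduction pairs and
  `∑ c_i w_i ∈ V_∞ ∩ V_0`, then all `c_i ∈ A` (dominant coefficient + reduction);
* the `w i` of `PairG3On G V` form a basis of `V` (`nc_lift_indep`), so the coordinates of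
  `x ∈ V ∩ V_∞ ∩ V_0` are in `A` and `p ^ M φ(x) = ∑ c_i p ^ M φ(w_i) ∈ A` (rank one:
  `Fermat.Agent.H57.FF.exists_pow_mul_mem_finite`).
-/

set_option autoImplicit false
set_option linter.style.haveILetI false
set_option linter.unusedSectionVars false

noncomputable section

open AlgebraicCurve ModularCurve

namespace Fermat.Agent.H87.ORD

open Fermat.Agent.H72.FF Fermat.Agent.H18.ORD

variable {N : ℕ} {A : ValuationSubring Qb} {Foo F0 : Type} [Field Foo] [Field F0]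
  [Algebra (kRes A) Foo] [Algebra (kRes A) F0] {ι : Type}

/-- the coordinates of an element of `V_∞ ∩ V_0` in a family with independent reduction pairs
are integral -/
theorem pb_coeff_mem (G : NodalData N A Foo F0 ι)
    (hcoo : ∀ c : Qb, c ∈ A → algebraMap Qb (FLb N) c ∈ G.Voo)
    (hc0 : ∀ c : Qb, c ∈ A → algebraMap Qb (FLb N) c ∈ G.V0)
    (hroo : ∀ (c : A) (h : algebraMap Qb (FLb N) (c : Qb) ∈ G.Voo),
      G.redOo ⟨_, h⟩ = algebraMap (kRes A) Foo (IsLocalRing.residue A c))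
    (hr0 : ∀ (c : A) (h : algebraMap Qb (FLb N) (c : Qb) ∈ G.V0),
      G.red0 ⟨_, h⟩ = algebraMap (kRes A) F0 (IsLocalRing.residue A c))
    {m : ℕ} (w : Fin m → FLb N) (hw : ∀ i, w i ∈ G.Voo) (hw0 : ∀ i, w i ∈ G.V0)
    (hli : LinearIndependent (kRes A)
      (fun i => ((G.redOo ⟨w i, hw i⟩, G.red0 ⟨w i, hw0 i⟩) : Foo × F0)))
    (c : Fin m → Qb) (hx : ∑ i, c i • w i ∈ G.Voo) (hx0 : ∑ i, c i • w i ∈ G.V0) :
    ∀ i, c i ∈ A := by
  classical
  by_contra hcon
  push Not at hcon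
  obtain ⟨j, hj⟩ := hcon
  obtain ⟨i₀, -, hmax⟩ := Finset.exists_max_image Finset.univ (fun i => A.valuation (c i))
    ⟨j, Finset.mem_univ j⟩
  have hi₀A : c i₀ ∉ A := by
    intro h
    apply hj
    rw [← ValuationSubring.valuation_le_one_iff] at h ⊢
    exact le_trans (hmax j (Finset.mem_univ j)) h
  have hi₀ : c i₀ ≠ 0 := fun h => hi₀A (h ▸ A.zero_mem)
  have hdA : (c i₀)⁻¹ ∈ A := (A.mem_or_inv_mem (c i₀)).resolve_left hi₀A
  have hdres : IsLocalRing.residue A ⟨(c i₀)⁻¹, hdA⟩ = 0 := by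
    rw [IsLocalRing.residue_eq_zero_iff, IsLocalRing.mem_maximalIdeal, mem_nonunits_iff]
    intro hu
    apply hi₀A
    obtain ⟨e, he⟩ := hu.exists_right_inv
    have he' : (c i₀)⁻¹ * (e : Qb) = 1 := by
      have := congrArg (Subtype.val : A → Qb) he
      simpa using this
    have : c i₀ = (e : Qb) := by
      have h1 : c i₀ * ((c i₀)⁻¹ * (e : Qb)) = c i₀ := by rw [he', mul_one]
      rw [← mul_assoc, mul_inv_cancel₀ hi₀, one_mul] at h1
      exact h1.symm
    rw [this]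
    exact e.2
  have ha : ∀ i, (c i₀)⁻¹ * c i ∈ A := by
    intro i
    rw [← ValuationSubring.valuation_le_one_iff, map_mul, map_inv₀]
    have h1 := hmax i (Finset.mem_univ i)
    have h2 : A.valuation (c i₀) ≠ 0 := (map_ne_zero _).mpr hi₀
    calc (A.valuation (c i₀))⁻¹ * A.valuation (c i)
        ≤ (A.valuation (c i₀))⁻¹ * A.valuation (c i₀) := by gcongr
      _ = 1 := inv_mul_cancel₀ h2
  have hsum : ∑ i, algebraMap Qb (FLb N) ((c i₀)⁻¹ * c i) * w i =
      algebraMap Qb (FLb N) (c i₀)⁻¹ * ∑ i, c i • w i := by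
    rw [Finset.mul_sum]
    apply Finset.sum_congr rfl
    intro i _
    rw [map_mul, Algebra.smul_def]; ring
  -- reduce at `V_∞`
  have hoo : ∑ i, algebraMap (kRes A) Foo (IsLocalRing.residue A ⟨_, ha i⟩) *
      G.redOo ⟨w i, hw i⟩ = 0 := by
    have h1 : (∑ i, (⟨algebraMap Qb (FLb N) ((c i₀)⁻¹ * c i), hcoo _ (ha i)⟩ : G.Voo) *
        ⟨w i, hw i⟩) = ⟨algebraMap Qb (FLb N) (c i₀)⁻¹, hcoo _ hdA⟩ * ⟨_, hx⟩ := by
      apply Subtype.ext
      rw [AddSubmonoidClass.coe_finsetSum]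
      exact hsum
    have h2 := congrArg G.redOo h1
    rw [map_sum, map_mul, hroo ⟨_, hdA⟩ (hcoo _ hdA), hdres, map_zero, zero_mul] at h2
    rw [← h2]
    apply Finset.sum_congr rfl
    intro i _
    rw [map_mul, hroo ⟨_, ha i⟩ (hcoo _ (ha i))]
  have hzero : ∑ i, algebraMap (kRes A) F0 (IsLocalRing.residue A ⟨_, ha i⟩) *
      G.red0 ⟨w i, hw0 i⟩ = 0 := by
    have h1 : (∑ i, (⟨algebraMap Qb (FLb N) ((c i₀)⁻¹ * c i), hc0 _ (ha i)⟩ : G.V0) *
        ⟨w i, hw0 i⟩) = ⟨algebraMap Qb (FLb N) (c i₀)⁻¹, hc0 _ hdA⟩ * ⟨_, hx0⟩ := by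
      apply Subtype.ext
      rw [AddSubmonoidClass.coe_finsetSum]
      exact hsum
    have h2 := congrArg G.red0 h1
    rw [map_sum, map_mul, hr0 ⟨_, hdA⟩ (hc0 _ hdA), hdres, map_zero, zero_mul] at h2
    rw [← h2]
    apply Finset.sum_congr rfl
    intro i _
    rw [map_mul, hr0 ⟨_, ha i⟩ (hc0 _ (ha i))]
  have hrel : ∑ i, (IsLocalRing.residue A ⟨_, ha i⟩) •
      ((G.redOo ⟨w i, hw i⟩, G.red0 ⟨w i, hw0 i⟩) : Foo × F0) = 0 := by
    apply Prod.ext
    · rw [Prod.fst_sum]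
      simp only [Algebra.smul_def]
      exact hoo
    · rw [Prod.snd_sum]
      simp only [Algebra.smul_def]
      exact hzero
  have h3 := (Fintype.linearIndependent_iff.mp hli) _ hrel i₀
  have h4 : (⟨(c i₀)⁻¹ * c i₀, ha i₀⟩ : A) = 1 := Subtype.ext (inv_mul_cancel₀ hi₀)
  rw [h4, map_one] at h3
  exact one_ne_zero h3

/-- **[COORD]** : a linear functional is bounded on `V ∩ V_∞ ∩ V_0`. -/
theorem pairBounded : PairBoundedStatement := by
  intro N p A Foo F0 _ _ _ _ ι G hp hA H V hV hG3 φ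
  classical
  obtain ⟨ua, ub, hab, hV', hli⟩ := hG3
  have hw0 : ∀ i, ((ua i : G.Voo) : FLb N) ∈ G.V0 := fun i => by
    rw [hab i]; exact (ub i).2
  have hli' : LinearIndependent (kRes A) (fun i =>
      ((G.redOo ⟨((ua i : G.Voo) : FLb N), (ua i).2⟩,
        G.red0 ⟨((ua i : G.Voo) : FLb N), hw0 i⟩) : Foo × F0)) := by
    have : (fun i => ((G.redOo ⟨((ua i : G.Voo) : FLb N), (ua i).2⟩,
        G.red0 ⟨((ua i : G.Voo) : FLb N), hw0 i⟩) : Foo × F0)) =
        fun i => (G.redOo (ua i), G.red0 (ub i)) := by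
      funext i
      have e : (⟨((ua i : G.Voo) : FLb N), hw0 i⟩ : G.V0) = ub i := Subtype.ext (hab i)
      rw [e]
    rw [this]
    exact hli
  have hcoo : ∀ c : Qb, c ∈ A → algebraMap Qb (FLb N) c ∈ G.Voo :=
    fun c hc => (H.const_oo c).mpr hc
  have hc0 : ∀ c : Qb, c ∈ A → algebraMap Qb (FLb N) c ∈ G.V0 :=
    fun c hc => (H.const_zero c).mpr hc
  have hind : LinearIndependent Qb (fun i => ((ua i : G.Voo) : FLb N)) :=
    nc_lift_indep G hcoo hc0 H.red_const_oo H.red_const_zero _ (fun i => (ua i).2) hw0 hli'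
  have hindV : LinearIndependent Qb
      (fun i => (⟨((ua i : G.Voo) : FLb N), hV' i⟩ : V)) := by
    apply LinearIndependent.of_comp V.subtype
    exact hind
  have hspan : Submodule.span Qb
      (Set.range (fun i => (⟨((ua i : G.Voo) : FLb N), hV' i⟩ : V))) = ⊤ :=
    hindV.span_eq_top_of_card_eq_finrank' (by simp)
  obtain ⟨M, hM⟩ := Fermat.Agent.H57.FF.exists_pow_mul_mem_finite hp A hA
    (fun i => φ ((ua i : G.Voo) : FLb N))
  refine ⟨M, fun x hx hxoo hx0 => ?_⟩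
  have hxs : (⟨x, hx⟩ : V) ∈ Submodule.span Qb
      (Set.range (fun i => (⟨((ua i : G.Voo) : FLb N), hV' i⟩ : V))) := by
    rw [hspan]; exact Submodule.mem_top
  obtain ⟨c, hcx⟩ := (Submodule.mem_span_range_iff_exists_fun Qb).mp hxs
  have hx_eq : x = ∑ i, c i • ((ua i : G.Voo) : FLb N) := by
    have h2 := congrArg (Subtype.val : V → FLb N) hcx
    rw [AddSubmonoidClass.coe_finsetSum] at h2
    exact h2.symm
  have hc : ∀ i, c i ∈ A :=
    pb_coeff_mem G hcoo hc0 H.red_const_oo H.red_const_zero _ (fun i => (ua i).2) hw0 hli'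
      c (by rw [← hx_eq]; exact hxoo) (by rw [← hx_eq]; exact hx0)
  have hφ : (p : Qb) ^ M * φ x =
      ∑ i, c i * ((p : Qb) ^ M * φ ((ua i : G.Voo) : FLb N)) := by
    conv_lhs => rw [hx_eq]
    rw [map_sum, Finset.mul_sum]
    apply Finset.sum_congr rfl
    intro i _
    rw [map_smul, smul_eq_mul]; ring
  rw [hφ]
  exact sum_mem fun i _ => A.mul_mem _ _ (hc i) (hM i)

end Fermat.Agent.H87.ORD
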