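import Fermat.Agent.H18.ORD.NodalDefs

/-!
# P-ORD, block B1-LATT (abstract half): the sup-norm lattice property (M5) (helper87)

* `exists_max_three` : among three constants (the first nonzero) one dominates the other two
  for the valuation of `A`;
* `pairLattice_of_single` : the single-valuation lattice property of `⟨1, f⟩` at `V_∞` and at
  `V_0` implies the pair lattice property, i.e. exactly the field `lattice` of
  `H18.ORD.NodalRvHyp` for `f`;
* `singleLat_of_g3` : a hypothesis in the shape of `H66.GaussLatticeStatement` (G3) implies the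
  single-valuation lattice property of `⟨1, f⟩` for non-constant `f`;
* `singleLat_comap` : transport of the single-valuation lattice property along an automorphism
  (`V_0 = W⁻¹ V_∞`, `red_0 = red_∞ ∘ W`).
-/

set_option autoImplicit false

noncomputable section

open AlgebraicCurve ModularCurve

namespace Fermat.Agent.H87.ORD

open Fermat.Agent.H72.FF Fermat.Agent.H18.ORD

/-- Among two constants, the first nonzero, one dominates. -/
theorem exists_max_two (A : ValuationSubring Qb) (x y : Qb) (hx : x ≠ 0) :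
    ∃ m : Qb, m ≠ 0 ∧ (m = x ∨ m = y) ∧ m⁻¹ * x ∈ A ∧ m⁻¹ * y ∈ A := by
  by_cases h : x⁻¹ * y ∈ A
  · exact ⟨x, hx, Or.inl rfl, by rw [inv_mul_cancel₀ hx]; exact A.one_mem, h⟩
  · have hy : y ≠ 0 := by
      rintro rfl
      exact h (by rw [mul_zero]; exact A.zero_mem)
    have h' : (x⁻¹ * y)⁻¹ ∈ A := (A.mem_or_inv_mem (x⁻¹ * y)).resolve_left h
    refine ⟨y, hy, Or.inr rfl, ?_, by rw [inv_mul_cancel₀ hy]; exact A.one_mem⟩
    have : (x⁻¹ * y)⁻¹ = y⁻¹ * x := by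
      rw [mul_inv, inv_inv, mul_comm]
    rwa [this] at h'

/-- Among three constants, the first nonzero, one dominates. -/
theorem exists_max_three (A : ValuationSubring Qb) (x y z : Qb) (hx : x ≠ 0) :
    ∃ m : Qb, m ≠ 0 ∧ (m = x ∨ m = y ∨ m = z) ∧ m⁻¹ * x ∈ A ∧ m⁻¹ * y ∈ A ∧ m⁻¹ * z ∈ A := by
  obtain ⟨m₁, hm₁, hm₁', h1x, h1y⟩ := exists_max_two A x y hx
  obtain ⟨m, hm, hm', h2m, h2z⟩ := exists_max_two A m₁ z hm₁
  refine ⟨m, hm, ?_, ?_, ?_, h2z⟩
  · rcases hm' with h | h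
    · rcases hm₁' with h' | h'
      · exact Or.inl (h.trans h')
      · exact Or.inr (Or.inl (h.trans h'))
    · exact Or.inr (Or.inr h)
  · have : m⁻¹ * x = (m⁻¹ * m₁) * (m₁⁻¹ * x) := by field_simp
    rw [this]; exact A.mul_mem _ _ h2m h1x
  · have : m⁻¹ * y = (m⁻¹ * m₁) * (m₁⁻¹ * y) := by field_simp
    rw [this]; exact A.mul_mem _ _ h2m h1y

section Abstract

variable {A : ValuationSubring Qb} {F : Type} [Field F] [Algebra Qb F]
  {Foo F0 : Type} [Field Foo] [Field F0] [Algebra (kRes A) Foo] [Algebra (kRes A) F0]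

/-- The single-valuation lattice property of `⟨1, f⟩`. -/
def SingleLat (A : ValuationSubring Qb) {F : Type} [Field F] [Algebra Qb F]
    {Fk : Type} [Field Fk] [Algebra (kRes A) Fk] (V : Subring F) (red : V →+* Fk) (f : F) :
    Prop :=
  ∃ (α β : Qb) (h : algebraMap Qb F α * f + algebraMap Qb F β ∈ V), α ≠ 0 ∧
    ¬ ∃ κ : kRes A, red ⟨_, h⟩ = algebraMap (kRes A) Fk κ

/-- **Pair lattice from the two single lattices** (abstract form). -/
theorem pairLattice_of_single_abs (Voo V0 : Subring F) (redOo : Voo →+* Foo) (red0 : V0 →+* F0)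
    (hcoo : ∀ c : Qb, c ∈ A → algebraMap Qb F c ∈ Voo)
    (hc0 : ∀ c : Qb, c ∈ A → algebraMap Qb F c ∈ V0)
    (hroo : ∀ (c : A) (h : algebraMap Qb F (c : Qb) ∈ Voo),
      redOo ⟨_, h⟩ = algebraMap (kRes A) Foo (IsLocalRing.residue A c))
    (hr0 : ∀ (c : A) (h : algebraMap Qb F (c : Qb) ∈ V0),
      red0 ⟨_, h⟩ = algebraMap (kRes A) F0 (IsLocalRing.residue A c))
    (f : F) (hoo : SingleLat A Voo redOo f) (h0 : SingleLat A V0 red0 f) :
    ∃ (α β : Qb) (h : algebraMap Qb F α * f + algebraMap Qb F β ∈ Voo)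
      (h0 : algebraMap Qb F α * f + algebraMap Qb F β ∈ V0), α ≠ 0 ∧
      ¬ ∃ κ : kRes A, redOo ⟨_, h⟩ = algebraMap (kRes A) Foo κ ∧
        red0 ⟨_, h0⟩ = algebraMap (kRes A) F0 κ := by
  obtain ⟨α₁, β₁, h₁, hα₁, hn₁⟩ := hoo
  obtain ⟨α₂, β₂, h₂, hα₂, hn₂⟩ := h0
  obtain ⟨m, hm, hm', hmx, hmy, hmz⟩ :=
    exists_max_three A α₁⁻¹ α₂⁻¹ (β₁ / α₁ - β₂ / α₂) (inv_ne_zero hα₁)
  have hA1 : algebraMap Qb F α₁ ≠ 0 := by
    rw [Ne, map_eq_zero]; exact hα₁
  have hA2 : algebraMap Qb F α₂ ≠ 0 := by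
    rw [Ne, map_eq_zero]; exact hα₂
  have hAm : algebraMap Qb F m ≠ 0 := by
    rw [Ne, map_eq_zero]; exact hm
  have e1 : algebraMap Qb F m⁻¹ * f + algebraMap Qb F (m⁻¹ * (β₁ / α₁)) =
      algebraMap Qb F (m⁻¹ * α₁⁻¹) *
        (algebraMap Qb F α₁ * f + algebraMap Qb F β₁) := by
    simp only [map_mul, map_div₀, map_inv₀]
    field_simp
  have e2 : algebraMap Qb F m⁻¹ * f + algebraMap Qb F (m⁻¹ * (β₁ / α₁)) =
      algebraMap Qb F (m⁻¹ * α₂⁻¹) *
        (algebraMap Qb F α₂ * f + algebraMap Qb F β₂) +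
        algebraMap Qb F (m⁻¹ * (β₁ / α₁ - β₂ / α₂)) := by
    simp only [map_mul, map_div₀, map_inv₀, map_sub]
    field_simp
    ring
  have hcxV : algebraMap Qb F (m⁻¹ * α₁⁻¹) ∈ Voo := hcoo _ hmx
  have hcyV : algebraMap Qb F (m⁻¹ * α₂⁻¹) ∈ V0 := hc0 _ hmy
  have hczV : algebraMap Qb F (m⁻¹ * (β₁ / α₁ - β₂ / α₂)) ∈ V0 := hc0 _ hmz
  have hgoo : algebraMap Qb F m⁻¹ * f + algebraMap Qb F (m⁻¹ * (β₁ / α₁)) ∈ Voo := by
    rw [e1]; exact Voo.mul_mem hcxV h₁
  have hg0 : algebraMap Qb F m⁻¹ * f + algebraMap Qb F (m⁻¹ * (β₁ / α₁)) ∈ V0 := by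
    rw [e2]; exact V0.add_mem (V0.mul_mem hcyV h₂) hczV
  refine ⟨m⁻¹, m⁻¹ * (β₁ / α₁), hgoo, hg0, inv_ne_zero hm, ?_⟩
  rintro ⟨κ, hκ1, hκ2⟩
  have r1 : redOo ⟨_, hgoo⟩ =
      algebraMap (kRes A) Foo (IsLocalRing.residue A ⟨m⁻¹ * α₁⁻¹, hmx⟩) * redOo ⟨_, h₁⟩ := by
    have : (⟨_, hgoo⟩ : Voo) = ⟨_, hcxV⟩ * ⟨_, h₁⟩ := Subtype.ext e1
    rw [this, map_mul, hroo ⟨m⁻¹ * α₁⁻¹, hmx⟩ hcxV]
  have r2 : red0 ⟨_, hg0⟩ =
      algebraMap (kRes A) F0 (IsLocalRing.residue A ⟨m⁻¹ * α₂⁻¹, hmy⟩) * red0 ⟨_, h₂⟩ +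
        algebraMap (kRes A) F0
          (IsLocalRing.residue A ⟨m⁻¹ * (β₁ / α₁ - β₂ / α₂), hmz⟩) := by
    have : (⟨_, hg0⟩ : V0) = ⟨_, hcyV⟩ * ⟨_, h₂⟩ + ⟨_, hczV⟩ := Subtype.ext e2
    rw [this, map_add, map_mul, hr0 ⟨m⁻¹ * α₂⁻¹, hmy⟩ hcyV,
      hr0 ⟨m⁻¹ * (β₁ / α₁ - β₂ / α₂), hmz⟩ hczV]
  by_cases hx0 : IsLocalRing.residue A ⟨m⁻¹ * α₁⁻¹, hmx⟩ = 0
  · rw [r1, hx0, map_zero, zero_mul] at hκ1
    have hκ : κ = 0 := (map_eq_zero (algebraMap (kRes A) Foo)).mp hκ1.symm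
    rw [r2, hκ, map_zero] at hκ2
    by_cases hy0 : IsLocalRing.residue A ⟨m⁻¹ * α₂⁻¹, hmy⟩ = 0
    · rw [hy0, map_zero, zero_mul, zero_add] at hκ2
      have hz0 : IsLocalRing.residue A ⟨m⁻¹ * (β₁ / α₁ - β₂ / α₂), hmz⟩ = 0 :=
        (map_eq_zero (algebraMap (kRes A) F0)).mp hκ2
      have hone : IsLocalRing.residue A (1 : A) ≠ 0 := by
        rw [map_one]; exact one_ne_zero
      rcases hm' with h | h | h
      · apply hone
        have : (1 : A) = ⟨m⁻¹ * α₁⁻¹, hmx⟩ := Subtype.ext (by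
          show (1 : Qb) = m⁻¹ * α₁⁻¹
          rw [← h, inv_mul_cancel₀ hm])
        rw [this]; exact hx0
      · apply hone
        have : (1 : A) = ⟨m⁻¹ * α₂⁻¹, hmy⟩ := Subtype.ext (by
          show (1 : Qb) = m⁻¹ * α₂⁻¹
          rw [← h, inv_mul_cancel₀ hm])
        rw [this]; exact hy0
      · apply hone
        have : (1 : A) = ⟨m⁻¹ * (β₁ / α₁ - β₂ / α₂), hmz⟩ := Subtype.ext (by
          show (1 : Qb) = m⁻¹ * (β₁ / α₁ - β₂ / α₂)
          rw [← h, inv_mul_cancel₀ hm])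
        rw [this]; exact hz0
    · apply hn₂
      refine ⟨-(IsLocalRing.residue A ⟨m⁻¹ * (β₁ / α₁ - β₂ / α₂), hmz⟩) /
        IsLocalRing.residue A ⟨m⁻¹ * α₂⁻¹, hmy⟩, ?_⟩
      have ha : algebraMap (kRes A) F0 (IsLocalRing.residue A ⟨m⁻¹ * α₂⁻¹, hmy⟩) ≠ 0 := by
        rw [Ne, map_eq_zero]; exact hy0
      rw [map_div₀, map_neg, eq_div_iff ha]
      linear_combination hκ2
  · apply hn₁
    refine ⟨κ / IsLocalRing.residue A ⟨m⁻¹ * α₁⁻¹, hmx⟩, ?_⟩
    have ha : algebraMap (kRes A) Foo (IsLocalRing.residue A ⟨m⁻¹ * α₁⁻¹, hmx⟩) ≠ 0 := by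
      rw [Ne, map_eq_zero]; exact hx0
    rw [map_div₀, eq_div_iff ha]
    rw [r1] at hκ1
    linear_combination hκ1

/-- **Single lattice from a (G3)-shaped hypothesis**: if every finite-dimensional subspace `W`
contains `dim W` elements of `V` with linearly independent reductions, then `⟨1, f⟩` has the
single-valuation lattice property for every non-constant `f`. -/
theorem singleLat_of_g3 {Fk : Type} [Field Fk] [Algebra (kRes A) Fk] (V : Subring F)
    (red : V →+* Fk)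
    (hc : ∀ c : Qb, algebraMap Qb F c ∈ V → c ∈ A)
    (hr : ∀ (c : A) (h : algebraMap Qb F (c : Qb) ∈ V),
      red ⟨_, h⟩ = algebraMap (kRes A) Fk (IsLocalRing.residue A c))
    (hG3 : ∀ W : Submodule Qb F, FiniteDimensional Qb W →
      ∃ u : Fin (Module.finrank Qb W) → V, (∀ i, ((u i : V) : F) ∈ W) ∧
        LinearIndependent (kRes A) (fun i => red (u i)))
    (f : F) (hf : ∀ c : Qb, f ≠ algebraMap Qb F c) :
    SingleLat A V red f := by
  classical
  -- `1, f` are linearly independent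
  have hli : LinearIndependent Qb ![(1 : F), f] := by
    rw [LinearIndependent.pair_iff]
    intro s t hst
    by_cases ht : t = 0
    · subst ht
      simp only [zero_smul, add_zero] at hst
      have : s = 0 := by
        by_contra hs
        have : (s • (1 : F)) ≠ 0 := smul_ne_zero hs one_ne_zero
        exact this hst
      exact ⟨this, rfl⟩
    · exfalso
      apply hf (-(s / t))
      have h1 : t • f = -(s • (1 : F)) := eq_neg_of_add_eq_zero_right hst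
      have h2 : f = t⁻¹ • (t • f) := by rw [smul_smul, inv_mul_cancel₀ ht, one_smul]
      rw [h2, h1, Algebra.algebraMap_eq_smul_one, smul_neg, smul_smul, neg_smul]
      congr 2
      field_simp
  set W : Submodule Qb F := Submodule.span Qb (Set.range ![(1 : F), f]) with hW
  have : FiniteDimensional Qb W := FiniteDimensional.span_of_finite Qb (Set.finite_range _)
  have hrank : Module.finrank Qb W = 2 := by
    rw [hW, finrank_span_eq_card hli]; simp
  obtain ⟨u, huW, hu⟩ := hG3 W inferInstance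
  -- the coordinates
  have hcoord : ∀ i, ∃ a b : Qb, ((u i : V) : F) = algebraMap Qb F a * f + algebraMap Qb F b := by
    intro i
    have := huW i
    rw [hW, Matrix.range_cons, Matrix.range_cons, Matrix.range_empty, Set.union_empty,
      Set.singleton_union, Submodule.mem_span_pair] at this
    obtain ⟨b, a, hab⟩ := this
    refine ⟨a, b, ?_⟩
    rw [← hab, Algebra.smul_def, Algebra.smul_def, mul_one, add_comm]
  by_contra hcon
  -- every reduction is a constant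
  have hall : ∀ i, ∃ κ : kRes A, red (u i) = algebraMap (kRes A) Fk κ := by
    intro i
    obtain ⟨a, b, hab⟩ := hcoord i
    by_cases ha : a = 0
    · subst ha
      rw [map_zero, zero_mul, zero_add] at hab
      have hbV : algebraMap Qb F b ∈ V := by rw [← hab]; exact (u i).2
      have hbA : b ∈ A := hc b hbV
      refine ⟨IsLocalRing.residue A ⟨b, hbA⟩, ?_⟩
      rw [← hr ⟨b, hbA⟩ hbV]
      congr 1
      exact Subtype.ext hab
    · by_contra hκ
      apply hcon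
      have hmem : algebraMap Qb F a * f + algebraMap Qb F b ∈ V := by
        rw [← hab]; exact (u i).2
      refine ⟨a, b, hmem, ha, ?_⟩
      rintro ⟨κ, hκ'⟩
      apply hκ
      refine ⟨κ, ?_⟩
      rw [← hκ']
      congr 1
      exact Subtype.ext hab
  -- two indices
  have h0lt : 0 < Module.finrank Qb W := by omega
  have h1lt : 1 < Module.finrank Qb W := by omega
  obtain ⟨κ₀, hκ₀⟩ := hall ⟨0, h0lt⟩
  obtain ⟨κ₁, hκ₁⟩ := hall ⟨1, h1lt⟩
  have hne : (⟨0, h0lt⟩ : Fin (Module.finrank Qb W)) ≠ ⟨1, h1lt⟩ := by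
    intro h
    have := congrArg Fin.val h
    simp at this
  have hκ₀ne : κ₀ ≠ 0 := by
    rintro rfl
    rw [map_zero] at hκ₀
    exact hu.ne_zero ⟨0, h0lt⟩ hκ₀
  have hrel : κ₁ • red (u ⟨0, h0lt⟩) - κ₀ • red (u ⟨1, h1lt⟩) = 0 := by
    rw [hκ₀, hκ₁, Algebra.smul_def, Algebra.smul_def]
    ring
  have hpair : LinearIndependent (kRes A)
      ![red (u ⟨0, h0lt⟩), red (u ⟨1, h1lt⟩)] := by
    have hinj : Function.Injective
        (![⟨0, h0lt⟩, ⟨1, h1lt⟩] : Fin 2 → Fin (Module.finrank Qb W)) := by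
      intro i j hij
      fin_cases i <;> fin_cases j
      · rfl
      · exact absurd hij hne
      · exact absurd hij.symm hne
      · rfl
    have := hu.comp _ hinj
    convert this using 1
    ext i
    fin_cases i <;> rfl
  have := (LinearIndependent.pair_iff.mp hpair) κ₁ (-κ₀)
    (by rw [neg_smul, ← sub_eq_add_neg]; exact hrel)
  exact hκ₀ne (neg_eq_zero.mp this.2)

/-- Transport of the single lattice property along an automorphism. -/
theorem singleLat_comap {Fk : Type} [Field Fk] [Algebra (kRes A) Fk] (Voo V0 : Subring F)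
    (redOo : Voo →+* Fk) (red0 : V0 →+* Fk) (w : F ≃ₐ[Qb] F)
    (hw : ∀ x : F, w x ∈ Voo → x ∈ V0)
    (hred : ∀ (x : F) (h : w x ∈ Voo) (h0 : x ∈ V0), red0 ⟨x, h0⟩ = redOo ⟨w x, h⟩)
    (f : F) (h : SingleLat A Voo redOo (w f)) : SingleLat A V0 red0 f := by
  obtain ⟨α, β, hmem, hα, hn⟩ := h
  have e : w (algebraMap Qb F α * f + algebraMap Qb F β) =
      algebraMap Qb F α * w f + algebraMap Qb F β := by
    rw [map_add, map_mul, AlgEquiv.commutes, AlgEquiv.commutes]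
  have hmem' : w (algebraMap Qb F α * f + algebraMap Qb F β) ∈ Voo := by rw [e]; exact hmem
  refine ⟨α, β, hw _ hmem', hα, ?_⟩
  rintro ⟨κ, hκ⟩
  apply hn
  refine ⟨κ, ?_⟩
  rw [← hκ, hred _ hmem' (hw _ hmem')]
  congr 1
  exact Subtype.ext e.symm

end Abstract

section Nodal

variable {N : ℕ} {A : ValuationSubring Qb} {Foo F0 : Type} [Field Foo] [Field F0]
  [Algebra (kRes A) Foo] [Algebra (kRes A) F0] {ι : Type}

/-- **(M5) for a nodal datum** : the field `lattice` of `H18.ORD.NodalRvHyp` follows from the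
constants fields and the single-valuation lattice property at `V_∞` and at `V_0`. -/
theorem nodal_lattice_of_single (G : NodalData N A Foo F0 ι)
    (hcoo : ∀ c : Qb, algebraMap Qb (FLb N) c ∈ G.Voo ↔ c ∈ A)
    (hc0 : ∀ c : Qb, algebraMap Qb (FLb N) c ∈ G.V0 ↔ c ∈ A)
    (hroo : ∀ (c : A) (h : algebraMap Qb (FLb N) (c : Qb) ∈ G.Voo),
      G.redOo ⟨_, h⟩ = algebraMap (kRes A) Foo (IsLocalRing.residue A c))
    (hr0 : ∀ (c : A) (h : algebraMap Qb (FLb N) (c : Qb) ∈ G.V0),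
      G.red0 ⟨_, h⟩ = algebraMap (kRes A) F0 (IsLocalRing.residue A c))
    (hsoo : ∀ f : FLb N, (∀ c : Qb, f ≠ algebraMap Qb (FLb N) c) →
      SingleLat A G.Voo G.redOo f)
    (hs0 : ∀ f : FLb N, (∀ c : Qb, f ≠ algebraMap Qb (FLb N) c) →
      SingleLat A G.V0 G.red0 f) :
    ∀ f : FLb N, (∀ c : Qb, f ≠ algebraMap Qb (FLb N) c) →
    ∃ (α β : Qb) (h : algebraMap Qb (FLb N) α * f + algebraMap Qb (FLb N) β ∈ G.Voo)
      (h0 : algebraMap Qb (FLb N) α * f + algebraMap Qb (FLb N) β ∈ G.V0), α ≠ 0 ∧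
      ¬ ∃ κ : kRes A, G.redOo ⟨_, h⟩ = algebraMap (kRes A) Foo κ ∧
        G.red0 ⟨_, h0⟩ = algebraMap (kRes A) F0 κ := fun f hf =>
  pairLattice_of_single_abs G.Voo G.V0 G.redOo G.red0 (fun c hc => (hcoo c).mpr hc)
    (fun c hc => (hc0 c).mpr hc) hroo hr0 f (hsoo f hf) (hs0 f hf)

/-- **(M5) from (G3) at `V_∞` and an automorphism `W` with `V_0 = W⁻¹ V_∞`,
`red_0 = red_∞ ∘ W`** (the Atkin–Lehner situation; here `F_0 = F_∞`). -/
theorem nodal_lattice_of_g3 {ι' : Type} (G : NodalData N A Foo Foo ι')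
    (hcoo : ∀ c : Qb, algebraMap Qb (FLb N) c ∈ G.Voo ↔ c ∈ A)
    (hc0 : ∀ c : Qb, algebraMap Qb (FLb N) c ∈ G.V0 ↔ c ∈ A)
    (hroo : ∀ (c : A) (h : algebraMap Qb (FLb N) (c : Qb) ∈ G.Voo),
      G.redOo ⟨_, h⟩ = algebraMap (kRes A) Foo (IsLocalRing.residue A c))
    (hr0 : ∀ (c : A) (h : algebraMap Qb (FLb N) (c : Qb) ∈ G.V0),
      G.red0 ⟨_, h⟩ = algebraMap (kRes A) Foo (IsLocalRing.residue A c))
    (hG3 : ∀ W : Submodule Qb (FLb N), FiniteDimensional Qb W →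
      ∃ u : Fin (Module.finrank Qb W) → G.Voo, (∀ i, ((u i : G.Voo) : FLb N) ∈ W) ∧
        LinearIndependent (kRes A) (fun i => G.redOo (u i)))
    (w : FLb N ≃ₐ[Qb] FLb N)
    (hw : ∀ x : FLb N, w x ∈ G.Voo → x ∈ G.V0)
    (hred : ∀ (x : FLb N) (h : w x ∈ G.Voo) (h0 : x ∈ G.V0),
      G.red0 ⟨x, h0⟩ = G.redOo ⟨w x, h⟩) :
    ∀ f : FLb N, (∀ c : Qb, f ≠ algebraMap Qb (FLb N) c) →
    ∃ (α β : Qb) (h : algebraMap Qb (FLb N) α * f + algebraMap Qb (FLb N) β ∈ G.Voo)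
      (h0 : algebraMap Qb (FLb N) α * f + algebraMap Qb (FLb N) β ∈ G.V0), α ≠ 0 ∧
      ¬ ∃ κ : kRes A, G.redOo ⟨_, h⟩ = algebraMap (kRes A) Foo κ ∧
        G.red0 ⟨_, h0⟩ = algebraMap (kRes A) Foo κ := by
  have hs : ∀ f : FLb N, (∀ c : Qb, f ≠ algebraMap Qb (FLb N) c) →
      SingleLat A G.Voo G.redOo f := fun f hf =>
    singleLat_of_g3 G.Voo G.redOo (fun c hc => (hcoo c).mp hc) hroo hG3 f hf
  refine nodal_lattice_of_single G hcoo hc0 hroo hr0 hs (fun f hf => ?_)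
  refine singleLat_comap G.Voo G.V0 G.redOo G.red0 w hw hred f (hs (w f) ?_)
  intro c hc
  apply hf c
  apply w.injective
  rw [hc, AlgEquiv.commutes]

end Nodal

end Fermat.Agent.H87.ORD
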